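import Fermat.Agent.S05.GoodRed

/-!
# HW phase 3 (E-side for `m`-torsion, `m` odd, not nec. prime): integrality and injectivity

Generalisation of `S05.torsion_x_integral` / `S05.eq_of_congr_of_hns` from prime order `p` to an
arbitrary odd `m` prime to the residue characteristic `q`.
-/

set_option autoImplicit false

namespace Fermat.Agent.HW

open WeierstrassCurve WeierstrassCurve.Affine WeierstrassCurve.Affine.Point
open Fermat.Agent.S05

variable {K : Type*} [Field K] (A : ValuationSubring K)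
variable [DecidableEq K] {W : WeierstrassCurve.Affine K}

open Classical in
/-- core of the integrality argument: a point of odd order `p` (unit in `A`) whose
`x`-coordinate has maximal valuation among its nonzero multiples is integral. -/
theorem core_odd (p q : ℕ) (hp : Odd p) (hq : q.Prime) (hpq : ¬ q ∣ p)
    (hqA : A.valuation (q : K) < 1)
    (hb₂ : W.b₂ ∈ A) (hb₄ : W.b₄ ∈ A) (hb₆ : W.b₆ ∈ A) (hb₈ : W.b₈ ∈ A)
    {R : W.Point} (hR : R ≠ 0) (hord : addOrderOf R = p)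
    (hmax : ∀ j : ℕ, j • R ≠ 0 → A.valuation (xc (j • R)) ≤ A.valuation (xc R)) :
    A.valuation (xc R) ≤ 1 := by
  by_contra hcon
  rw [not_le] at hcon
  have hpR : p • R = 0 := by rw [← hord]; exact addOrderOf_nsmul_eq_zero R
  obtain ⟨x1, hx1⟩ : ∃ x1, x1 = xc R := ⟨_, rfl⟩
  rw [← hx1] at hcon
  have hx1ne : x1 ≠ 0 := by
    intro h; rw [h, _root_.map_zero] at hcon; exact absurd hcon (by simp)
  obtain ⟨t, ht⟩ : ∃ t, t = x1⁻¹ := ⟨_, rfl⟩
  have hxt : x1 * t = 1 := by rw [ht]; exact mul_inv_cancel₀ hx1ne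
  have htv : A.valuation t < 1 := by
    rw [ht, map_inv₀]; exact inv_lt_one_of_one_lt₀ hcon
  have hmul : ∀ j : ℕ, j • R = 0 ↔ p ∣ j := fun j => by
    rw [← hord]; exact addOrderOf_dvd_iff_nsmul_eq_zero.symm
  have hp3 : 3 ≤ p := by
    have h1 : p ≠ 1 := by
      intro h; rw [h] at hord; exact hR (AddMonoid.addOrderOf_eq_one_iff.1 hord)
    obtain ⟨m, hm⟩ := hp
    omega
  have hmem : ∀ j : ℕ, ¬ p ∣ j → xc (j • R) * t ∈ A := by
    intro j hj
    rw [← A.valuation_le_one_iff, map_mul, ht, map_inv₀]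
    have h1 := hmax j (fun h => hj ((hmul j).1 h))
    rw [← hx1] at h1
    have hv : A.valuation x1 ≠ 0 := (A.valuation.ne_zero_iff).2 hx1ne
    calc A.valuation (xc (j • R)) * (A.valuation x1)⁻¹
        ≤ A.valuation x1 * (A.valuation x1)⁻¹ := mul_le_mul' h1 le_rfl
      _ = 1 := mul_inv_cancel₀ hv
  let Ξ : ℕ → A := fun j => if h : xc (j • R) * t ∈ A then ⟨_, h⟩ else 0
  have hΞ : ∀ j, ¬ p ∣ j → (Ξ j : K) = xc (j • R) * t := by
    intro j hj
    simp only [Ξ, dif_pos (hmem j hj)]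
  let T : A := ⟨t, (A.valuation_le_one_iff _).1 htv.le⟩
  have hT : IsLocalRing.residue A T = 0 := by
    rw [IsLocalRing.residue_eq_zero_iff, A.valuation_lt_one_iff]; exact htv
  let B₂ : A := ⟨_, hb₂⟩
  let B₄ : A := ⟨_, hb₄⟩
  let B₆ : A := ⟨_, hb₆⟩
  let B₈ : A := ⟨_, hb₈⟩
  have hnd : ∀ j : ℕ, 1 ≤ j → j ≤ p - 1 → ¬ p ∣ j := by
    intro j h1 h2 h3
    have := Nat.le_of_dvd (by omega) h3
    omega
  have hΞ1 : Ξ 1 = 1 := by
    apply Subtype.ext
    rw [hΞ 1 (hnd 1 le_rfl (by omega)), one_smul, ← hx1, hxt]; rfl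
  -- duplication
  have hdup : Ξ 2 * (4 + B₂ * T + 2 * B₄ * T ^ 2 + B₆ * T ^ 3)
      = 1 - B₄ * T ^ 2 - 2 * B₆ * T ^ 3 - B₈ * T ^ 4 := by
    apply Subtype.ext
    push_cast
    rw [hΞ 2 (hnd 2 (by omega) (by omega))]
    have h2R : R + R ≠ 0 := by
      rw [← two_nsmul]; intro h; exact hnd 2 (by omega) (by omega) ((hmul 2).1 h)
    have := xc_dbl hR h2R
    rw [← two_nsmul, ← hx1] at this
    change xc (2 • R) * t * (4 + W.b₂ * t + 2 * W.b₄ * t ^ 2 + W.b₆ * t ^ 3)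
      = 1 - W.b₄ * t ^ 2 - 2 * W.b₆ * t ^ 3 - W.b₈ * t ^ 4
    have e4 : x1 ^ 4 * t ^ 4 = 1 := by rw [← mul_pow, hxt, one_pow]
    have e3 : x1 ^ 3 * t ^ 3 = 1 := by rw [← mul_pow, hxt, one_pow]
    have e2 : x1 ^ 2 * t ^ 2 = 1 := by rw [← mul_pow, hxt, one_pow]
    grind
  have hrecA : ∀ m, 2 ≤ m → m + 1 ≤ p - 1 →
      Ξ (m + 1) * Ξ (m - 1) * (Ξ m - 1) ^ 2
        = (Ξ m) ^ 2 - B₄ * Ξ m * T ^ 2 - B₆ * (Ξ m + 1) * T ^ 3 - B₈ * T ^ 4 := by
    intro m hm2 hmp
    apply Subtype.ext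
    push_cast
    rw [hΞ (m + 1) (hnd _ (by omega) hmp), hΞ (m - 1) (hnd _ (by omega) (by omega)),
      hΞ m (hnd _ (by omega) (by omega))]
    have hm0 : m • R ≠ 0 := fun h => hnd m (by omega) (by omega) ((hmul m).1 h)
    have ha : m • R + R = (m + 1) • R := by rw [succ_nsmul]
    have hs : m • R - R = (m - 1) • R := by
      obtain ⟨n, rfl⟩ : ∃ n, m = n + 1 := ⟨m - 1, by omega⟩
      rw [succ_nsmul]; simp
    have hne : xc (m • R) ≠ xc R := by
      apply xc_ne_of_add_sub_ne_zero hm0 hR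
      · rw [ha]; exact fun h => hnd (m + 1) (by omega) hmp ((hmul _).1 h)
      · rw [hs]; exact fun h => hnd (m - 1) (by omega) (by omega) ((hmul _).1 h)
    have := xc_add_mul_xc_sub hm0 hR hne
    rw [ha, hs, ← hx1] at this
    change xc ((m + 1) • R) * t * (xc ((m - 1) • R) * t) * (xc (m • R) * t - 1) ^ 2
      = (xc (m • R) * t) ^ 2 - W.b₄ * (xc (m • R) * t) * t ^ 2
        - W.b₆ * (xc (m • R) * t + 1) * t ^ 3 - W.b₈ * t ^ 4
    grind
  have key := rec_main (min q (p - 1)) (fun j => IsLocalRing.residue A (Ξ j))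
    (by simp only [hΞ1, map_one])
    (by
      have := congrArg (IsLocalRing.residue A) hdup
      simp only [map_mul, map_add, map_sub, map_pow, hT, map_one, map_ofNat] at this
      simpa [mul_comm] using this)
    (by
      intro m hm2 hmB
      have := congrArg (IsLocalRing.residue A) (hrecA m hm2 (hmB.trans (min_le_right _ _)))
      simp only [map_mul, map_add, map_sub, map_pow, hT, map_one] at this
      simpa using this)
    (by
      intro j hj1 hjB
      apply residue_natCast_ne_zero A hq hqA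
      intro hd
      have h1 := Nat.le_of_dvd (by omega) hd
      have h2 := hjB.trans (min_le_left _ _)
      omega)
  rcases Nat.lt_or_ge (p - 1) q with hlt | hge
  · -- `p < q`
    have h1 := key (p - 1) (by omega) (by rw [min_eq_right hlt.le])
    have hΞp : Ξ (p - 1) = 1 := by
      apply Subtype.ext
      rw [hΞ (p - 1) (hnd _ (by omega) le_rfl)]
      have : (p - 1) • R = -R := by
        rw [eq_neg_iff_add_eq_zero, ← succ_nsmul, Nat.sub_add_cancel (by omega), hpR]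
      rw [this, xc_neg, ← hx1, hxt]; rfl
    simp only [hΞp, map_one, mul_one] at h1
    have hc : ((p - 1 : ℕ) : IsLocalRing.ResidueField A) = (p : IsLocalRing.ResidueField A) - 1 := by
      rw [Nat.cast_sub (by omega)]; simp
    have hc2 : ((p - 2 : ℕ) : IsLocalRing.ResidueField A) = (p : IsLocalRing.ResidueField A) - 2 := by
      rw [Nat.cast_sub (by omega)]; simp
    have h2 : (p : IsLocalRing.ResidueField A) * ((p - 2 : ℕ) : IsLocalRing.ResidueField A) = 0 := by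
      rw [hc2]; rw [hc] at h1; linear_combination h1
    rcases mul_eq_zero.1 h2 with h | h
    · exact residue_natCast_ne_zero A hq hqA hpq h
    · refine residue_natCast_ne_zero A hq hqA ?_ h
      intro hd
      have := Nat.le_of_dvd (by omega) hd
      omega
  · have h1 := key q hq.one_le (by rw [min_eq_left hge])
    rw [residue_natCast_eq_zero A hqA] at h1
    simp at h1

/-- Nonzero points killed by an odd `m` prime to the residue characteristic have integral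
`x`-coordinate. -/
theorem torsion_x_integral_odd (m q : ℕ) (hm : Odd m) (hq : q.Prime) (hmq : ¬ q ∣ m)
    (hqA : A.valuation (q : K) < 1)
    (hb₂ : W.b₂ ∈ A) (hb₄ : W.b₄ ∈ A) (hb₆ : W.b₆ ∈ A) (hb₈ : W.b₈ ∈ A)
    {R : W.Point} (hR : R ≠ 0) (hmR : m • R = 0) :
    A.valuation (xc R) ≤ 1 := by
  obtain ⟨p, hord⟩ : ∃ p, addOrderOf R = p := ⟨_, rfl⟩
  have hpm : p ∣ m := by rw [← hord]; exact addOrderOf_dvd_of_nsmul_eq_zero hmR
  have hm0 : 0 < m := hm.pos
  have hp0 : 0 < p := Nat.pos_of_dvd_of_pos hpm hm0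
  have hmul : ∀ j : ℕ, j • R = 0 ↔ p ∣ j := fun j => by
    rw [← hord]; exact addOrderOf_dvd_iff_nsmul_eq_zero.symm
  have hp1 : p ≠ 1 := by
    intro h; rw [h] at hord; exact hR (AddMonoid.addOrderOf_eq_one_iff.1 hord)
  obtain ⟨j0, hj0, hj0max⟩ := Finset.exists_max_image (Finset.Icc 1 (p - 1))
    (fun j => A.valuation (xc (j • R))) ⟨1, by simp; omega⟩
  rw [Finset.mem_Icc] at hj0
  have hj0nd : ¬ p ∣ j0 := by
    intro h
    have := Nat.le_of_dvd (by omega) h
    omega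
  have hR' : j0 • R ≠ 0 := fun h => hj0nd ((hmul _).1 h)
  have hmR' : m • (j0 • R) = 0 := by
    rw [smul_comm, hmR, smul_zero]
  have hdvd : addOrderOf (j0 • R) ∣ m := addOrderOf_dvd_of_nsmul_eq_zero hmR'
  have hc := core_odd A (addOrderOf (j0 • R)) q (hm.of_dvd_nat hdvd) hq
    (fun h => hmq (h.trans hdvd)) hqA hb₂ hb₄ hb₆ hb₈ hR' rfl (by
    intro j hj
    rw [smul_smul] at hj ⊢
    rw [← mod_addOrderOf_nsmul, hord] at hj ⊢
    apply hj0max
    rw [Finset.mem_Icc]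
    have h1 : (j * j0) % p < p := Nat.mod_lt _ hp0
    have h2 : (j * j0) % p ≠ 0 := by
      intro h; rw [h, zero_smul] at hj; exact hj rfl
    omega)
  have h1 := hj0max 1 (by rw [Finset.mem_Icc]; omega)
  simp only [one_smul] at h1
  exact h1.trans hc

/-- Two nonzero `m`-torsion points which are congruent modulo the maximal ideal, and reduce to a
nonsingular point, are equal. -/
theorem eq_of_congr_of_hns_odd (m q : ℕ) (hm : Odd m) (hq : q.Prime) (hmq : ¬ q ∣ m)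
    (hqA : A.valuation (q : K) < 1)
    (h₁ : W.a₁ ∈ A) (h₂ : W.a₂ ∈ A) (h₃ : W.a₃ ∈ A) (h₄ : W.a₄ ∈ A) (h₆ : W.a₆ ∈ A)
    {P Q : W.Point} (hP : P ≠ 0) (hQ : Q ≠ 0) (hpP : m • P = 0) (hpQ : m • Q = 0)
    (hx : A.valuation (xc P - xc Q) < 1) (hy : A.valuation (yc P - yc Q) < 1)
    (hns : A.valuation (W.a₁ * yc Q - (3 * xc Q ^ 2 + 2 * W.a₂ * xc Q + W.a₄)) = 1 ∨
      A.valuation (2 * yc Q + W.a₁ * xc Q + W.a₃) = 1) :
    P = Q := by
  obtain ⟨hb₂, hb₄, hb₆, hb₈⟩ := b_mem A h₁ h₂ h₃ h₄ h₆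
  have hxP := torsion_x_integral_odd A m q hm hq hmq hqA hb₂ hb₄ hb₆ hb₈ hP hpP
  have hxQ := torsion_x_integral_odd A m q hm hq hmq hqA hb₂ hb₄ hb₆ hb₈ hQ hpQ
  have hyP := y_integral A h₁ h₂ h₃ h₄ h₆ hP hxP
  have hyQ := y_integral A h₁ h₂ h₃ h₄ h₆ hQ hxQ
  have le1 : ∀ {z : K}, z ∈ A → A.valuation z ≤ 1 := fun hz => (A.valuation_le_one_iff _).2 hz
  rcases sub_eq_zero_or_nonintegral A.valuation (le1 h₁) (le1 h₂) (le1 h₃) (le1 h₄) hP hQ
    hxP hyP hxQ hyQ hx hy hns with h | h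
  · exact sub_eq_zero.1 h
  · exfalso
    have hne : P - Q ≠ 0 := by
      intro h0
      rw [h0] at h
      simp at h
    have hpPQ : m • (P - Q) = 0 := by rw [smul_sub, hpP, hpQ, sub_zero]
    have := torsion_x_integral_odd A m q hm hq hmq hqA hb₂ hb₄ hb₆ hb₈ hne hpPQ
    exact absurd this (not_le.2 h)

end Fermat.Agent.HW
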