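import Fermat.Agent.HW.Red
import Fermat.Agent.HW.Pow.Integral

/-!
# HW phase 3: reduction of `m`-torsion points (`m` odd, prime to the residue characteristic)

Same as `HW/Red.lean`, for `m` (called `p` below) an arbitrary odd number not divisible by the
residue characteristic `q`.
-/

set_option autoImplicit false
set_option linter.unusedSectionVars false
noncomputable section

namespace Fermat.Agent.HW

open WeierstrassCurve WeierstrassCurve.Affine WeierstrassCurve.Affine.Point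
open Fermat.Agent.S05

variable {K : Type*} [Field K] {A : ValuationSubring K} {k : Type*} [Field k]

section Torsion

variable [DecidableEq K] [DecidableEq k]

/-- the standing hypotheses -/
structure TorsHypOdd (π : A →+* k) (WA : WeierstrassCurve A) (p q : ℕ) : Prop where
  res : IsResidueMap π
  disc : IsUnit WA.Δ
  hp : Odd p
  hq : q.Prime
  hpq : ¬ q ∣ p
  hqA : A.valuation (q : K) < 1

variable {π : A →+* k} {WA : WeierstrassCurve A} {p q : ℕ}

namespace TorsHypOdd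

variable (H : TorsHypOdd π WA p q)
include H

theorem val_disc : A.valuation (WK WA).Δ = 1 := by
  have : (WK WA).Δ = ((WA.Δ : A) : K) := map_Δ WA A.subtype
  rw [this]
  exact (A.valuation_eq_one_iff _).mp H.disc

theorem disc_k_ne_zero : (Wk π WA).Δ ≠ 0 := by
  have : (Wk π WA).Δ = π WA.Δ := map_Δ WA π
  rw [this]
  exact (H.disc.map π).ne_zero

theorem nonsingular_k {X Y : A} (h : (WK WA).Equation (X : K) (Y : K)) :
    (Wk π WA).Nonsingular (π X) (π Y) := by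
  have h1 : WA.toAffine.Equation X Y :=
    (map_equation (W := WA.toAffine) (f := A.subtype) Subtype.val_injective X Y).mp h
  exact (equation_iff_nonsingular_of_Δ_ne_zero H.disc_k_ne_zero).mp (Equation.map π h1)

theorem exists_coords {P : (WK WA).Point} (hP : P ≠ 0) (hpP : p • P = 0) :
    ∃ X Y : A, xc P = X ∧ yc P = Y := by
  obtain ⟨hb₂, hb₄, hb₆, hb₈⟩ := b_mem A (W := WK WA) (WA.a₁).2 (WA.a₂).2 (WA.a₃).2 (WA.a₄).2
    (WA.a₆).2
  have hx := torsion_x_integral_odd A p q H.hp H.hq H.hpq H.hqA hb₂ hb₄ hb₆ hb₈ hP hpP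
  have hy := y_integral A (W := WK WA) (WA.a₁).2 (WA.a₂).2 (WA.a₃).2 (WA.a₄).2 (WA.a₆).2 hP hx
  exact ⟨⟨_, (A.valuation_le_one_iff _).mp hx⟩, ⟨_, (A.valuation_le_one_iff _).mp hy⟩, rfl, rfl⟩

theorem exists_lift {P : (WK WA).Point} (hpP : p • P = 0) : ∃ Pk : (Wk π WA).Point, Lift P Pk := by
  by_cases hP : P = 0
  · exact ⟨0, Or.inl ⟨hP, rfl⟩⟩
  · obtain ⟨X, Y, hX, hY⟩ := H.exists_coords hP hpP
    have he : (WK WA).Equation (X : K) (Y : K) := by
      rw [← hX, ← hY]; exact (nonsingular_xc_yc hP).1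
    exact ⟨.some _ _ (H.nonsingular_k he), Or.inr ⟨hP, some_ne_zero _, X, Y, hX, hY, rfl, rfl⟩⟩

/-- congruent torsion points are equal -/
theorem eq_of_congr {P Q : (WK WA).Point} (hP : P ≠ 0) (hQ : Q ≠ 0) (hpP : p • P = 0)
    (hpQ : p • Q = 0) {X₁ Y₁ X₂ Y₂ : A} (hX₁ : xc P = X₁) (hY₁ : yc P = Y₁) (hX₂ : xc Q = X₂)
    (hY₂ : yc Q = Y₂) (hX : π X₁ = π X₂) (hY : π Y₁ = π Y₂) : P = Q := by
  refine eq_of_congr_of_hns_odd A p q H.hp H.hq H.hpq H.hqA (W := WK WA) (WA.a₁).2 (WA.a₂).2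
    (WA.a₃).2 (WA.a₄).2 (WA.a₆).2 hP hQ hpP hpQ ?_ ?_ ?_
  · rw [hX₁, hX₂]; exact H.res.val_sub_lt hX
  · rw [hY₁, hY₂]; exact H.res.val_sub_lt hY
  · refine hns_of_unit_disc A (W := WK WA) (WA.a₁).2 (WA.a₂).2 (WA.a₃).2 (WA.a₄).2 H.val_disc hQ
      ?_ ?_
    · rw [hX₂]; exact A.valuation_le_one _
    · rw [hY₂]; exact A.valuation_le_one _

theorem eq_zero_of_eq_neg {P : (WK WA).Point} (hpP : p • P = 0) (h : P = -P) : P = 0 := by
  have h2 : 2 • P = 0 := by
    rw [two_smul]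
    nth_rewrite 1 [h]
    exact neg_add_cancel P
  obtain ⟨m, hm⟩ := H.hp
  rw [hm, add_smul, mul_comm, mul_smul, h2, smul_zero, zero_add, one_smul] at hpP
  exact hpP

/-- additivity of the reduction on `p`-torsion -/
theorem lift_add {P Q : (WK WA).Point} {Pk Qk : (Wk π WA).Point} (hpP : p • P = 0)
    (hpQ : p • Q = 0) (hP : Lift P Pk) (hQ : Lift Q Qk) : Lift (P + Q) (Pk + Qk) := by
  rcases hP with ⟨rfl, rfl⟩ | ⟨hP0, hPk0, X₁, Y₁, hX₁, hY₁, hX₁k, hY₁k⟩
  · rw [zero_add, zero_add]; exact hQ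
  rcases hQ with ⟨rfl, rfl⟩ | ⟨hQ0, hQk0, X₂, Y₂, hX₂, hY₂, hX₂k, hY₂k⟩
  · rw [add_zero, add_zero]; exact Or.inr ⟨hP0, hPk0, X₁, Y₁, hX₁, hY₁, hX₁k, hY₁k⟩
  have negK : ∀ X Y : A, (WK WA).negY (X : K) (Y : K) = ((WA.toAffine.negY X Y : A) : K) :=
    fun X Y => map_negY (W' := WA.toAffine) A.subtype X Y
  have negk : ∀ X Y : A, (Wk π WA).negY (π X) (π Y) = π (WA.toAffine.negY X Y) :=
    fun X Y => map_negY (W' := WA.toAffine) π X Y
  by_cases hX : π X₁ = π X₂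
  · by_cases hY : π Y₁ = π Y₂
    · -- `P = Q`: doubling
      have hPQ : P = Q := H.eq_of_congr hP0 hQ0 hpP hpQ hX₁ hY₁ hX₂ hY₂ hX hY
      subst hPQ
      have eX : X₁ = X₂ := Subtype.ext (hX₁.symm.trans hX₂)
      have eY : Y₁ = Y₂ := Subtype.ext (hY₁.symm.trans hY₂)
      subst eX; subst eY
      have hD : π (Y₁ - WA.toAffine.negY X₁ Y₁) ≠ 0 := by
        intro h0
        rw [map_sub, sub_eq_zero] at h0
        have hneg : P = -P := H.eq_of_congr hP0 (neg_ne_zero.mpr hP0) hpP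
          (by rw [smul_neg, hpP, _root_.neg_zero]) hX₁ hY₁ (by rw [xc_neg, hX₁])
          (by rw [yc_neg hP0, hX₁, hY₁, negK]) rfl h0
        exact hP0 (H.eq_zero_of_eq_neg hpP hneg)
      obtain ⟨U, hU⟩ := H.res.exists_inv hD
      have hyK : (Y₁ : K) ≠ (WK WA).negY X₁ Y₁ := by
        intro h
        rw [negK] at h
        apply hD
        have h' : Y₁ = WA.toAffine.negY X₁ Y₁ := Subtype.ext h
        rw [map_sub, ← h', sub_self]
      have hyk : π Y₁ ≠ (Wk π WA).negY (π X₁) (π Y₁) := by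
        intro h
        rw [negk] at h
        apply hD
        rw [map_sub, h, sub_self]
      refine lift_add_of_slope
        (Λ := (3 * X₁ ^ 2 + 2 * WA.a₂ * X₁ + WA.a₄ - WA.a₁ * Y₁) * U) hP0 hP0 hPk0 hQk0
        hX₁ hY₁ hX₁ hY₁ hX₁k hY₁k hX₂k hY₂k (fun h => hyK h.2) (fun h => hyk h.2) ?_ ?_
      · rw [slope_of_Y_ne rfl hyK, negK]
        exact TorsHyp.map_div_of_mul_eq_one A.subtype hU
          (3 * X₁ ^ 2 + 2 * WA.a₂ * X₁ + WA.a₄ - WA.a₁ * Y₁)
      · rw [slope_of_Y_ne rfl hyk, negk]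
        have := TorsHyp.map_div_of_mul_eq_one π hU (3 * X₁ ^ 2 + 2 * WA.a₂ * X₁ + WA.a₄ - WA.a₁ * Y₁)
        rw [← this]
        simp only [map_sub, map_add, map_mul, map_pow, map_ofNat]
        rfl
    · -- `P = -Q`
      have e1 : (Wk π WA).Equation (π X₁) (π Y₁) := by
        rw [← hX₁k, ← hY₁k]; exact (nonsingular_xc_yc hPk0).1
      have e2 : (Wk π WA).Equation (π X₂) (π Y₂) := by
        rw [← hX₂k, ← hY₂k]; exact (nonsingular_xc_yc hQk0).1
      have hneg : π Y₁ = π (WA.toAffine.negY X₂ Y₂) := by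
        rw [← negk]
        exact (Y_eq_of_X_eq e1 e2 hX).resolve_left hY
      have hPQ : P = -Q := H.eq_of_congr hP0 (neg_ne_zero.mpr hQ0) hpP
        (by rw [smul_neg, hpQ, _root_.neg_zero]) hX₁ hY₁ (by rw [xc_neg, hX₂])
        (by rw [yc_neg hQ0, hX₂, hY₂, negK]) hX hneg
      have hk : Pk = -Qk := point_ext hPk0 (neg_ne_zero.mpr hQk0)
        (by rw [xc_neg, hX₁k, hX₂k, hX]) (by rw [yc_neg hQk0, hY₁k, hX₂k, hY₂k, negk, hneg])
      rw [hPQ, hk, neg_add_cancel, neg_add_cancel]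
      exact lift_zero
  · -- generic case
    obtain ⟨U, hU⟩ := H.res.exists_inv (Z := X₁ - X₂) (by rw [map_sub]; exact sub_ne_zero.mpr hX)
    have hXK : (X₁ : K) ≠ X₂ := fun h => hX (by rw [Subtype.ext h])
    refine lift_add_of_slope (Λ := (Y₁ - Y₂) * U) hP0 hQ0 hPk0 hQk0
      hX₁ hY₁ hX₂ hY₂ hX₁k hY₁k hX₂k hY₂k (fun h => hXK h.1) (fun h => hX h.1) ?_ ?_
    · rw [slope_of_X_ne hXK]
      exact TorsHyp.map_div_of_mul_eq_one A.subtype hU (Y₁ - Y₂)
    · rw [slope_of_X_ne hX, ← map_sub, ← map_sub]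
      exact TorsHyp.map_div_of_mul_eq_one π hU _

/-- the reduction map on `p`-torsion, as a function -/
def redFun (P : Submodule.torsionBy ℤ (WK WA).Point (p : ℤ)) : (Wk π WA).Point :=
  (H.exists_lift (TorsHyp.nsmul_eq_zero_of_mem P.2)).choose

theorem lift_redFun (P : Submodule.torsionBy ℤ (WK WA).Point (p : ℤ)) :
    Lift (P : (WK WA).Point) (H.redFun P) :=
  (H.exists_lift (TorsHyp.nsmul_eq_zero_of_mem P.2)).choose_spec

/-- **the reduction map on `p`-torsion** -/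
def red : Submodule.torsionBy ℤ (WK WA).Point (p : ℤ) →+ (Wk π WA).Point where
  toFun := H.redFun
  map_zero' := (H.lift_redFun 0).unique lift_zero
  map_add' P Q := (H.lift_redFun (P + Q)).unique
    (H.lift_add (TorsHyp.nsmul_eq_zero_of_mem P.2) (TorsHyp.nsmul_eq_zero_of_mem Q.2) (H.lift_redFun P)
      (H.lift_redFun Q))

theorem lift_red (P : Submodule.torsionBy ℤ (WK WA).Point (p : ℤ)) :
    Lift (P : (WK WA).Point) (H.red P) := H.lift_redFun P

theorem red_eq_of_lift {P : Submodule.torsionBy ℤ (WK WA).Point (p : ℤ)} {Pk : (Wk π WA).Point}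
    (h : Lift (P : (WK WA).Point) Pk) : H.red P = Pk := (H.lift_red P).unique h

theorem red_injective : Function.Injective H.red := by
  rw [injective_iff_map_eq_zero]
  intro P hP
  have := H.lift_red P
  rw [hP] at this
  exact Subtype.ext this.eq_zero

/-- the reduction map is given by reducing the coordinates -/
theorem red_coords (P : Submodule.torsionBy ℤ (WK WA).Point (p : ℤ)) (hP : P ≠ 0) :
    H.red P ≠ 0 ∧ ∃ X Y : A, xc (P : (WK WA).Point) = X ∧ yc (P : (WK WA).Point) = Y ∧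
      xc (H.red P) = π X ∧ yc (H.red P) = π Y := by
  rcases H.lift_red P with ⟨h0, _⟩ | ⟨_, h1, h2⟩
  · exact absurd (Subtype.ext h0) hP
  · exact ⟨h1, h2⟩

theorem p_nsmul_red (P : Submodule.torsionBy ℤ (WK WA).Point (p : ℤ)) : p • H.red P = 0 := by
  rw [← map_nsmul]
  have : p • P = 0 := Subtype.ext (TorsHyp.nsmul_eq_zero_of_mem P.2)
  rw [this, _root_.map_zero]

/-- **equivariance**: if `s`, `sk` act on points through compatible ring homs on the coordinates,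
then `red ∘ s = sk ∘ red`. -/
theorem red_equivariant (σA : A →+* A) (σk : k →+* k) (hσ : ∀ a, σk (π a) = π (σA a))
    (s : (WK WA).Point → (WK WA).Point) (sk : (Wk π WA).Point → (Wk π WA).Point)
    (hs0 : s 0 = 0) (hsk0 : sk 0 = 0)
    (hs : ∀ P : (WK WA).Point, P ≠ 0 → ∀ X Y : A, xc P = X → yc P = Y →
      s P ≠ 0 ∧ xc (s P) = σA X ∧ yc (s P) = σA Y)
    (hsk : ∀ P : (Wk π WA).Point, P ≠ 0 → sk P ≠ 0 ∧ xc (sk P) = σk (xc P) ∧ yc (sk P) = σk (yc P))
    (P P' : Submodule.torsionBy ℤ (WK WA).Point (p : ℤ))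
    (hP' : (P' : (WK WA).Point) = s P) : H.red P' = sk (H.red P) := by
  apply H.red_eq_of_lift
  rw [hP']
  rcases H.lift_red P with ⟨h0, h1⟩ | ⟨h0, h1, X, Y, hX, hY, hXk, hYk⟩
  · left; rw [h0, h1]; exact ⟨hs0, hsk0⟩
  · right
    obtain ⟨a, b, c⟩ := hs _ h0 X Y hX hY
    obtain ⟨a', b', c'⟩ := hsk _ h1
    exact ⟨a, a', σA X, σA Y, b, c, by rw [b', hXk, hσ], by rw [c', hYk, hσ]⟩

end TorsHypOdd

end Torsion

end Fermat.Agent.HW
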