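import Fermat.Agent.HW.Main
import Fermat.Agent.HW.Pow.Red

/-!
# HW phase 3: `Frob_ℓ² - a_ℓ Frob_ℓ + ℓ = 0` on `E[m]` for every odd `m` prime to `ℓ`

Same as `HW/Glue.lean`, `HW/Galois.lean`, `HW/Main.lean`, for `m` (called `p` below) an arbitrary odd
number not divisible by `ℓ`.
-/

set_option autoImplicit false
set_option linter.unusedSectionVars false
noncomputable section

namespace Fermat.Agent.HW

open WeierstrassCurve WeierstrassCurve.Affine WeierstrassCurve.Affine.Point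
open Fermat.Agent.S05
open scoped WeierstrassCurve.Affine

section Glue

variable {K : Type*} [Field K] [DecidableEq K] {A : ValuationSubring K}
variable {k : Type*} [Field k] [DecidableEq k] {π : A →+* k}
variable {WA : WeierstrassCurve A} {p q : ℕ}

/-- flexible form of the reduction map: for curves `W`, `W'` that are *propositionally* the base
changes of a model `WA` over `A`. -/
theorem TorsHypOdd.exists_red (H : TorsHypOdd π WA p q) (W : WeierstrassCurve.Affine K)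
    (W' : WeierstrassCurve.Affine k) (hW : W = WA.map A.subtype) (hW' : W' = WA.map π) :
    ∃ red : Submodule.torsionBy ℤ W.Point (p : ℤ) →+ W'.Point, Function.Injective red ∧
      ∀ P : Submodule.torsionBy ℤ W.Point (p : ℤ), P ≠ 0 → red P ≠ 0 ∧
        ∃ X Y : A, xc (P : W.Point) = X ∧ yc (P : W.Point) = Y ∧
          xc (red P) = π X ∧ yc (red P) = π Y := by
  subst hW hW'
  exact ⟨H.red, H.red_injective, H.red_coords⟩

/-- **glue**: the quadratic relation for Frobenius lifts on `p`-torsion. -/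
theorem TorsHypOdd.frob_relation (H : TorsHypOdd π WA p q) (W : WeierstrassCurve.Affine K)
    (W' : WeierstrassCurve.Affine k) (hW : W = WA.map A.subtype) (hW' : W' = WA.map π)
    (s : W.Point →+ W.Point) (σ : K →+* K)
    (hs : ∀ P : W.Point, P ≠ 0 → s P ≠ 0 ∧ xc (s P) = σ (xc P) ∧ yc (s P) = σ (yc P))
    (hσ : ∀ X : A, ∃ X' : A, σ (X : K) = X' ∧ π X' = π X ^ q)
    (φ : W'.Point →+ W'.Point)
    (hφ : ∀ P : W'.Point, P ≠ 0 → φ P ≠ 0 ∧ xc (φ P) = xc P ^ q ∧ yc (φ P) = yc P ^ q)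
    (a : ℤ) (hC : ∀ P : W'.Point, 2 • (φ (φ P) - a • φ P + (q : ℤ) • P) = 0)
    (P : W.Point) (hP : p • P = 0) : s (s P) - a • s P + (q : ℤ) • P = 0 := by
  obtain ⟨red, hinj, hcoord⟩ := H.exists_red W W' hW hW'
  have hmem : ∀ Q : W.Point, p • Q = 0 → Q ∈ Submodule.torsionBy ℤ W.Point (p : ℤ) := by
    intro Q hQ
    rw [Submodule.mem_torsionBy_iff, natCast_zsmul]; exact hQ
  have hsT : ∀ Q : W.Point, p • Q = 0 → p • s Q = 0 := by
    intro Q hQ
    rw [← map_nsmul, hQ, _root_.map_zero]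
  -- compatibility of `red` with `s` and `φ`
  have hcomp : ∀ (Q : W.Point) (hQ : p • Q = 0),
      red ⟨s Q, hmem _ (hsT Q hQ)⟩ = φ (red ⟨Q, hmem _ hQ⟩) := by
    intro Q hQ
    by_cases hQ0 : Q = 0
    · subst hQ0
      have e1 : (⟨s 0, hmem _ (hsT 0 hQ)⟩ : Submodule.torsionBy ℤ W.Point (p : ℤ)) = 0 :=
        Subtype.ext (_root_.map_zero s)
      have e2 : (⟨0, hmem _ hQ⟩ : Submodule.torsionBy ℤ W.Point (p : ℤ)) = 0 := rfl
      rw [e1, e2, _root_.map_zero, _root_.map_zero]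
    · obtain ⟨hs0, hsx, hsy⟩ := hs Q hQ0
      obtain ⟨h1, X, Y, hX, hY, hXk, hYk⟩ := hcoord ⟨Q, hmem _ hQ⟩
        (fun h => hQ0 (congrArg Subtype.val h))
      obtain ⟨h2, X', Y', hX', hY', hXk', hYk'⟩ := hcoord ⟨s Q, hmem _ (hsT Q hQ)⟩
        (fun h => hs0 (congrArg Subtype.val h))
      obtain ⟨h3, hφx, hφy⟩ := hφ _ h1
      obtain ⟨X'', hX'', hπX⟩ := hσ X
      obtain ⟨Y'', hY'', hπY⟩ := hσ Y
      have eX : X' = X'' := Subtype.ext (by
        rw [← hX', ← hX'']; show xc (s Q) = _; rw [hsx]; exact congrArg σ hX)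
      have eY : Y' = Y'' := Subtype.ext (by
        rw [← hY', ← hY'']; show yc (s Q) = _; rw [hsy]; exact congrArg σ hY)
      refine point_ext h2 h3 ?_ ?_
      · rw [hXk', hφx, hXk, eX, hπX]
      · rw [hYk', hφy, hYk, eY, hπY]
  set P₀ : Submodule.torsionBy ℤ W.Point (p : ℤ) := ⟨P, hmem _ hP⟩ with hP₀
  set P₁ : Submodule.torsionBy ℤ W.Point (p : ℤ) := ⟨s P, hmem _ (hsT P hP)⟩ with hP₁
  set P₂ : Submodule.torsionBy ℤ W.Point (p : ℤ) :=
    ⟨s (s P), hmem _ (hsT _ (hsT P hP))⟩ with hP₂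
  have e1 : red P₁ = φ (red P₀) := hcomp P hP
  have e2 : red P₂ = φ (φ (red P₀)) := by rw [← e1]; exact hcomp (s P) (hsT P hP)
  have hR : red (P₂ - a • P₁ + (q : ℤ) • P₀) = 0 := by
    have h2 : 2 • red (P₂ - a • P₁ + (q : ℤ) • P₀) = 0 := by
      rw [map_add, map_sub, map_zsmul, map_zsmul, e1, e2]
      exact hC _
    have hp' : p • red (P₂ - a • P₁ + (q : ℤ) • P₀) = 0 := by
      rw [← map_nsmul]
      have : p • (P₂ - a • P₁ + (q : ℤ) • P₀) = 0 :=
        Subtype.ext (TorsHyp.nsmul_eq_zero_of_mem (P₂ - a • P₁ + (q : ℤ) • P₀).2)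
      rw [this, _root_.map_zero]
    exact eq_zero_of_two_nsmul_of_odd_nsmul H.hp h2 hp'
  have h0 : P₂ - a • P₁ + (q : ℤ) • P₀ = 0 := hinj (by rw [hR, _root_.map_zero])
  exact congrArg Subtype.val h0


end Glue

section Gal

variable {K : Type*} [Field K] [DecidableEq K]
variable {R S : Type*} [CommRing R] [Field S]
  [Algebra R S] [Algebra R K] [Algebra S K] [IsScalarTower R S K]

/-- General form: `W'` a curve over `R`, `A` a valuation subring of `K`, `WA` a model over `A` with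
good reduction, `τ` a Frobenius element at `A`.  If the `l`-power Frobenius `φ` of the reduction
satisfies `2 • (φ² - aφ + l) = 0`, then `τ² - aτ + l = 0` on `p`-torsion (`p` odd, `p ≠ l`). -/
theorem frob_relation_galois_odd (W' : WeierstrassCurve.Affine R) (A : ValuationSubring K)
    [DecidableEq (IsLocalRing.ResidueField A)]
    (WA : WeierstrassCurve A) (hW : (W'⁄K) = WA.map A.subtype) (hΔ : IsUnit WA.Δ)
    {p l : ℕ} (hp : Odd p) (hl : l.Prime) (hpl : ¬ l ∣ p)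
    (hA : A.valuation (l : K) < 1) (τ : K ≃ₐ[S] K) (hτ : A.IsFrobeniusAt τ l)
    (Wk : WeierstrassCurve.Affine (IsLocalRing.ResidueField A))
    (hWk : Wk = WA.map (IsLocalRing.residue A))
    (φ : Wk.Point →+ Wk.Point)
    (hφ : ∀ P : Wk.Point, P ≠ 0 → φ P ≠ 0 ∧ xc (φ P) = xc P ^ l ∧ yc (φ P) = yc P ^ l)
    (a : ℤ) (hC : ∀ P : Wk.Point, 2 • (φ (φ P) - a • φ P + (l : ℤ) • P) = 0)
    (P : (W'⁄K).Point) (hP : p • P = 0) :
    τ • τ • P - a • (τ • P) + (l : ℤ) • P = 0 := by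
  have H : TorsHypOdd (IsLocalRing.residue A) WA p l :=
    ⟨isResidueMap_residue, hΔ, hp, hl, hpl, hA⟩
  obtain ⟨hd, hq⟩ := hτ
  refine H.frob_relation (W'⁄K) Wk hW hWk (Point.map (W' := W') τ.toAlgHom)
    (τ : K →+* K) ?_ ?_ φ hφ a hC P hP
  · intro Q hQ
    cases Q with
    | zero => exact absurd rfl hQ
    | some x y h =>
      rw [Point.map_some]
      exact ⟨some_ne_zero _, rfl, rfl⟩
  · intro X
    refine ⟨(⟨τ, hd⟩ : A.decompositionSubgroup S) • X, rfl, ?_⟩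
    exact hq (IsLocalRing.residue A X)


end Gal

theorem frobenius_relation_odd (W : WeierstrassCurve ℤ) {ℓ p : ℕ} (hℓ : ℓ.Prime) (hℓ2 : ℓ ≠ 2)
    (hgood : W.IsGoodPrimeFor ℓ) (hp : Odd p) (hpℓ : ¬ ℓ ∣ p)
    (A : ValuationSubring (AlgebraicClosure ℚ)) (hA : A.LiesOverPrime ℓ)
    (τ : AlgebraicClosure ℚ ≃ₐ[ℚ] AlgebraicClosure ℚ) (hτ : A.IsFrobeniusAt τ ℓ)
    (P : ((W.map (Int.castRingHom ℚ)).toAffine⁄(AlgebraicClosure ℚ)).Point) (hP : p • P = 0) :
    τ • τ • P - W.apOfModel ℓ • τ • P + (ℓ : ℤ) • P = 0 := by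
  classical
  have : Fact ℓ.Prime := ⟨hℓ⟩
  have hqA : A.valuation ((ℓ : ℕ) : AlgebraicClosure ℚ) < 1 := hA
  have : CharP (IsLocalRing.ResidueField A) ℓ :=
    (CharP.charP_iff_prime_eq_zero hℓ).mpr (residue_natCast_eq_zero A hqA)
  let _ : Algebra (ZMod ℓ) (IsLocalRing.ResidueField A) := ZMod.algebra _ ℓ
  have hΔ : IsUnit (W.map (Int.castRingHom A)).Δ := by
    rw [WeierstrassCurve.map_Δ, A.valuation_eq_one_iff]
    have := valuation_intCast_eq_one A hℓ hqA (n := W.Δ) hgood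
    simpa using this
  have hΔ' : (W.reductionMod ℓ).Δ ≠ 0 := by
    rw [WeierstrassCurve.reductionMod, WeierstrassCurve.map_Δ]
    intro h0
    exact hgood ((ZMod.intCast_zmod_eq_zero_iff_dvd W.Δ ℓ).mp h0)
  have hF := frobData (W.reductionMod ℓ) (IsLocalRing.ResidueField A)
  refine frob_relation_galois_odd (S := ℚ) (W.map (Int.castRingHom ℚ)).toAffine A
    (W.map (Int.castRingHom A)) (map_int_eq W _ _ _ _) hΔ hp hℓ hpℓ hqA τ hτ
    ((W.reductionMod ℓ).toAffine⁄(IsLocalRing.ResidueField A)) (map_int_eq W _ _ _ _)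
    (frob (W.reductionMod ℓ) (IsLocalRing.ResidueField A))
    (fun Q hQ => ⟨hF.ne Q hQ, hF.hx Q, hF.hy Q⟩) (W.apOfModel ℓ) ?_ P hP
  intro Q
  have h := frob_quadratic (W.reductionMod ℓ) hℓ2 hΔ' Q
  have ha : W.apOfModel ℓ = (ℓ : ℤ) + 1 - (Nat.card (W.reductionMod ℓ).toAffine.Point : ℤ) := by
    rw [WeierstrassCurve.apOfModel, WeierstrassCurve.traceOfFrobenius, WeierstrassCurve.card,
      Nat.card_zmod]
  rw [ha, ← natCast_zsmul]
  exact h

end Fermat.Agent.HW
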