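import Fermat.Agent.HW.Pow.NodeDefs
import Fermat.Agent.S05.Inertia
import Fermat.Prelude.Def_FLTPrelim_Modularity

/-!
# HW phase 3 / WP `P3-CRIT`: existence of the exact critical point at a multiplicative prime

`W / ℤ`, `q ∣ Δ`, `q ∤ c₄`, `A` a place of `ℚbar` over `q`.

PROOF (all uniform in `q`, including `q = 2, 3`).  Write `v = A.valuation`, everything in `ℚbar`.
1. `v c₄ = 1`, `v Δ < 1`, `1728 Δ = c₄³ - c₆²` (Mathlib `c_relation`) so `v c₆ = 1`.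
2. Take `s` with `s² = c₄` (alg. closed); replacing `s` by `-s` we may assume
   `v (c₆ + s³) ≤ v (c₆ - s³)`.  Put `x0 = (s - b₂)/12`, `y0 = -(a₁ x0 + a₃)/2`,
   `c =` the formula `hc`.  Then `6x0² + b₂x0 + b₄ = 0`, whence `hy`, `hx` (`ring`/`field_simp`), and the
   polynomial identities   `864 c = -(c₆ + s³)`,  `2 Δ = c (c₆ - s³)`,  `72 c = 18 b₆ - b₂ b₄ - c₄ x0`,
   `s = b₂ + 12 x0`,  `s y0 = a₁(3x0²+2a₂x0+a₄) - 2a₂(a₁x0+a₃) - 6x0(a₁x0+a₃)`.
3. `(c₆+s³) + (c₆-s³) = 2c₆` gives `v 2 ≤ v (c₆ - s³)`;  `(c₆+s³)(c₆-s³) = -1728 Δ` gives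
   `v (c₆+s³) ≤ v (864 Δ)`, so `v c ≤ v Δ < 1`.   `c ≠ 0` from `2Δ = c(…)`, `Δ ≠ 0`.
4. `c₄ x0 = 18b₆ - b₂b₄ - 72c` is integral and `v c₄ = 1`: `v x0 ≤ 1`.   `v s = 1` and the formula for
   `s y0`: `v y0 ≤ 1`.
5. `α, β` := the roots of `t² + a₁ t - (a₂ + 3x0)` (alg. closed; Vieta).  Integral by
   `S05.val_le_one_of_quadratic`.   `(α-β)² = a₁² + 4a₂ + 12x0 = s`, so `v (α-β) = 1`.
6. `σ` in inertia: `v (σ z - z) < 1` for integral `z` (`S05.inertia_spec`).  `(σ s)² = c₄` so `σ s = ± s`;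
   if `σ s = -s` then `σ x0 - x0 = -s/6` has `v ≥ 1`: contradiction.  So `σ s = s`, `σ x0 = x0`, `σ y0 = y0`.
   `σ α` is a root of the same quadratic, so `σ α ∈ {α, β}`, and `σ α = β` contradicts `v (α-β) = 1`.
-/

set_option autoImplicit false

namespace Fermat.Agent.HW

open WeierstrassCurve Fermat.Agent.S05
open scoped WeierstrassCurve.Affine

/-- a value whose square is `1` is `1`. -/
theorem crit_val_eq_one_of_sq {Γ : Type*} [LinearOrderedCommGroupWithZero Γ] {a : Γ}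
    (h : a ^ 2 = 1) : a = 1 := by
  rcases lt_trichotomy a 1 with h1 | h1 | h1
  · exact absurd h (ne_of_lt (pow_lt_one₀ zero_le h1 (by norm_num)))
  · exact h1
  · exact absurd h (ne_of_gt (one_lt_pow₀ h1 (by norm_num)))

/-- The abstract (valuation theoretic) part: steps 1-5. -/
theorem exists_nodeData_aux {K : Type*} [Field K] [IsAlgClosed K] [CharZero K]
    (A : ValuationSubring K) (W : WeierstrassCurve.Affine K)
    (h₁ : W.a₁ ∈ A) (h₂ : W.a₂ ∈ A) (h₃ : W.a₃ ∈ A) (h₄ : W.a₄ ∈ A) (h₆ : W.a₆ ∈ A)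
    (hc₄ : A.valuation W.c₄ = 1) (hΔ : A.valuation W.Δ < 1) (hΔ0 : W.Δ ≠ 0) :
    ∃ s x0 y0 α β c : K, s ^ 2 = W.c₄ ∧ s = W.b₂ + 12 * x0 ∧ A.valuation s = 1 ∧
      NodeData A W x0 y0 α β c := by
  have hnat : ∀ n : ℕ, (n : K) ∈ A := fun n => natCast_mem A n
  have hb₂d : W.b₂ = W.a₁ ^ 2 + 4 * W.a₂ := rfl
  have hb₄d : W.b₄ = 2 * W.a₄ + W.a₁ * W.a₃ := rfl
  have hb₆d : W.b₆ = W.a₃ ^ 2 + 4 * W.a₆ := rfl
  have hc₄d : W.c₄ = W.b₂ ^ 2 - 24 * W.b₄ := rfl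
  have hc₆d : W.c₆ = -W.b₂ ^ 3 + 36 * W.b₂ * W.b₄ - 216 * W.b₆ := rfl
  have hrel : 1728 * W.Δ = W.c₄ ^ 3 - W.c₆ ^ 2 := W.c_relation
  have m2 : (2 : K) ∈ A := by exact_mod_cast hnat 2
  have m3 : (3 : K) ∈ A := by exact_mod_cast hnat 3
  have m4 : (4 : K) ∈ A := by exact_mod_cast hnat 4
  have m6 : (6 : K) ∈ A := by exact_mod_cast hnat 6
  have m18 : (18 : K) ∈ A := by exact_mod_cast hnat 18
  have m72 : (72 : K) ∈ A := by exact_mod_cast hnat 72
  have hb₂ : W.b₂ ∈ A := by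
    rw [hb₂d]; exact A.add_mem _ _ (pow_mem h₁ 2) (A.mul_mem _ _ m4 h₂)
  have hb₄ : W.b₄ ∈ A := by
    rw [hb₄d]; exact A.add_mem _ _ (A.mul_mem _ _ m2 h₄) (A.mul_mem _ _ h₁ h₃)
  have hb₆ : W.b₆ ∈ A := by
    rw [hb₆d]; exact A.add_mem _ _ (pow_mem h₃ 2) (A.mul_mem _ _ m4 h₆)
  -- choice of `s`
  obtain ⟨s₀, hs₀⟩ := IsAlgClosed.exists_pow_nat_eq W.c₄ (n := 2) (by norm_num)
  obtain ⟨s, hs, hle⟩ : ∃ s : K, s ^ 2 = W.c₄ ∧
      A.valuation (W.c₆ + s ^ 3) ≤ A.valuation (W.c₆ - s ^ 3) := by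
    rcases le_total (A.valuation (W.c₆ + s₀ ^ 3)) (A.valuation (W.c₆ - s₀ ^ 3)) with h | h
    · exact ⟨s₀, hs₀, h⟩
    · refine ⟨-s₀, by rw [neg_sq, hs₀], ?_⟩
      have e1 : W.c₆ + (-s₀) ^ 3 = W.c₆ - s₀ ^ 3 := by ring
      have e2 : W.c₆ - (-s₀) ^ 3 = W.c₆ + s₀ ^ 3 := by ring
      rw [e1, e2]; exact h
  have hvs : A.valuation s = 1 := by
    apply crit_val_eq_one_of_sq
    rw [← map_pow, hs, hc₄]
  -- `v c₆ = 1`
  have hvc₆ : A.valuation W.c₆ = 1 := by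
    apply crit_val_eq_one_of_sq
    rw [← map_pow]
    have e : W.c₆ ^ 2 = W.c₄ ^ 3 + -(1728 * W.Δ) := by linear_combination hrel
    rw [e]
    have h1 : A.valuation (-(1728 * W.Δ)) < A.valuation (W.c₄ ^ 3) := by
      rw [Valuation.map_neg, map_mul, map_pow, hc₄, one_pow]
      have : A.valuation (1728 : K) ≤ 1 :=
        (A.valuation_le_one_iff _).2 (by exact_mod_cast hnat 1728)
      exact lt_of_le_of_lt (mul_le_of_le_one_left' this) hΔ
    rw [Valuation.map_add_eq_of_lt_left _ h1, map_pow, hc₄, one_pow]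
  obtain ⟨x0, hx0⟩ : ∃ x0 : K, s = W.b₂ + 12 * x0 := ⟨(s - W.b₂) / 12, by field_simp; ring⟩
  obtain ⟨y0, hy⟩ : ∃ y0 : K, 2 * y0 + W.a₁ * x0 + W.a₃ = 0 :=
    ⟨-(W.a₁ * x0 + W.a₃) / 2, by field_simp; ring⟩
  obtain ⟨c, hc⟩ : ∃ c : K, c = x0 ^ 3 + W.a₂ * x0 ^ 2 + W.a₄ * x0 + W.a₆ -
      (y0 ^ 2 + W.a₁ * x0 * y0 + W.a₃ * y0) := ⟨_, rfl⟩
  have hq : 6 * x0 ^ 2 + W.b₂ * x0 + W.b₄ = 0 := by
    have : 24 * (6 * x0 ^ 2 + W.b₂ * x0 + W.b₄) = 0 := by
      rw [hx0, hc₄d] at hs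
      linear_combination hs
    simpa using this
  have hx : W.a₁ * y0 - (3 * x0 ^ 2 + 2 * W.a₂ * x0 + W.a₄) = 0 := by
    rw [hb₂d, hb₄d] at hq
    linear_combination (W.a₁ / 2) * hy - (1 / 2) * hq
  have h4c : 4 * c = 4 * x0 ^ 3 + W.b₂ * x0 ^ 2 + 2 * W.b₄ * x0 + W.b₆ := by
    rw [hb₂d, hb₄d, hb₆d, hc]
    linear_combination (-(2 * y0 + W.a₁ * x0 + W.a₃)) * hy
  have h864 : 864 * c = -(W.c₆ + s ^ 3) := by
    rw [hc₆d, hx0]
    linear_combination 216 * h4c + (432 * x0 + 36 * W.b₂) * hq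
  have h2Δ : 2 * W.Δ = c * (W.c₆ - s ^ 3) := by
    have : 864 * (2 * W.Δ) = 864 * (c * (W.c₆ - s ^ 3)) := by
      have hs6 : W.c₄ ^ 3 = (s ^ 3) ^ 2 := by rw [← hs]; ring
      linear_combination hrel + hs6 - (W.c₆ - s ^ 3) * h864
    exact mul_left_cancel₀ (by norm_num) this
  have h72 : W.c₄ * x0 = 18 * W.b₆ - W.b₂ * W.b₄ - 72 * c := by
    rw [hc₄d]
    linear_combination 18 * h4c + (12 * x0 + W.b₂) * hq
  have hsy : s * y0 = W.a₁ * (3 * x0 ^ 2 + 2 * W.a₂ * x0 + W.a₄) - 2 * W.a₂ * (W.a₁ * x0 + W.a₃)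
      - 6 * x0 * (W.a₁ * x0 + W.a₃) := by
    rw [hx0, hb₂d]
    linear_combination W.a₁ * hx + (2 * W.a₂ + 6 * x0) * hy
  have c0 : c ≠ 0 := by
    rintro rfl
    rw [zero_mul] at h2Δ
    exact hΔ0 (by simpa using h2Δ)
  -- step 3
  have hv2 : A.valuation (2 : K) ≤ A.valuation (W.c₆ - s ^ 3) := by
    have e : (2 : K) * W.c₆ = (W.c₆ + s ^ 3) + (W.c₆ - s ^ 3) := by ring
    have h1 : A.valuation ((2 : K) * W.c₆) ≤ A.valuation (W.c₆ - s ^ 3) := by
      rw [e]; exact (A.valuation.map_add _ _).trans (max_le hle le_rfl)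
    rwa [map_mul, hvc₆, mul_one] at h1
  have hv2pos : 0 < A.valuation (2 : K) := by
    rw [Valuation.pos_iff]; norm_num
  have vcΔ : A.valuation c ≤ A.valuation W.Δ := by
    have h1 : A.valuation (2 : K) * A.valuation W.Δ = A.valuation c * A.valuation (W.c₆ - s ^ 3) := by
      rw [← map_mul, ← map_mul, h2Δ]
    by_contra hcon
    push Not at hcon
    have h2 : A.valuation (2 : K) * A.valuation W.Δ < A.valuation c * A.valuation (W.c₆ - s ^ 3) :=
      calc A.valuation (2 : K) * A.valuation W.Δ < A.valuation (2 : K) * A.valuation c :=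
            mul_lt_mul_of_pos_left hcon hv2pos
        _ = A.valuation c * A.valuation (2 : K) := mul_comm _ _
        _ ≤ A.valuation c * A.valuation (W.c₆ - s ^ 3) := mul_le_mul' le_rfl hv2
    exact absurd h1 (ne_of_lt h2)
  have vc : A.valuation c < 1 := lt_of_le_of_lt vcΔ hΔ
  have mc : c ∈ A := (A.valuation_le_one_iff _).1 vc.le
  -- step 4
  have vx0 : A.valuation x0 ≤ 1 := by
    have h1 : W.c₄ * x0 ∈ A := by
      rw [h72]
      exact sub_mem (sub_mem (A.mul_mem _ _ m18 hb₆) (A.mul_mem _ _ hb₂ hb₄))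
        (A.mul_mem _ _ m72 mc)
    have h2 := (A.valuation_le_one_iff _).2 h1
    rwa [map_mul, hc₄, one_mul] at h2
  have mx0 : x0 ∈ A := (A.valuation_le_one_iff _).1 vx0
  have vy0 : A.valuation y0 ≤ 1 := by
    have h1 : s * y0 ∈ A := by
      rw [hsy]
      have hu : W.a₁ * x0 + W.a₃ ∈ A := A.add_mem _ _ (A.mul_mem _ _ h₁ mx0) h₃
      refine sub_mem (sub_mem (A.mul_mem _ _ h₁ ?_) ?_) ?_
      · exact A.add_mem _ _ (A.add_mem _ _ (A.mul_mem _ _ m3 (pow_mem mx0 2))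
          (A.mul_mem _ _ (A.mul_mem _ _ m2 h₂) mx0)) h₄
      · exact A.mul_mem _ _ (A.mul_mem _ _ m2 h₂) hu
      · exact A.mul_mem _ _ (A.mul_mem _ _ m6 mx0) hu
    have h2 := (A.valuation_le_one_iff _).2 h1
    rwa [map_mul, hvs, one_mul] at h2
  -- step 5
  obtain ⟨δ, hδ⟩ := IsAlgClosed.exists_pow_nat_eq s (n := 2) (by norm_num)
  obtain ⟨α, hα⟩ : ∃ α : K, 2 * α = -W.a₁ + δ := ⟨(-W.a₁ + δ) / 2, by field_simp⟩
  obtain ⟨β, hβ⟩ : ∃ β : K, 2 * β = -W.a₁ - δ := ⟨(-W.a₁ - δ) / 2, by field_simp⟩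
  have hsum : α + β = -W.a₁ := by linear_combination (1 / 2) * hα + (1 / 2) * hβ
  have hdiff : α - β = δ := by linear_combination (1 / 2) * hα - (1 / 2) * hβ
  have hprod : α * β = -(W.a₂ + 3 * x0) := by
    rw [hx0, hb₂d] at hδ
    have : 4 * (α * β) = 4 * -(W.a₂ + 3 * x0) := by
      have e : 4 * (α * β) = (2 * α) * (2 * β) := by ring
      rw [e, hα, hβ]
      linear_combination -hδ
    exact mul_left_cancel₀ (by norm_num) this
  have mprod : W.a₂ + 3 * x0 ∈ A := A.add_mem _ _ h₂ (A.mul_mem _ _ m3 mx0)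
  have vα : A.valuation α ≤ 1 := by
    refine val_le_one_of_quadratic A.valuation (a := W.a₁) (c := W.a₂ + 3 * x0)
      ((A.valuation_le_one_iff _).2 h₁) ((A.valuation_le_one_iff _).2 mprod) ?_
    linear_combination α * hsum - hprod
  have vβ : A.valuation β ≤ 1 := by
    refine val_le_one_of_quadratic A.valuation (a := W.a₁) (c := W.a₂ + 3 * x0)
      ((A.valuation_le_one_iff _).2 h₁) ((A.valuation_le_one_iff _).2 mprod) ?_
    linear_combination β * hsum - hprod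
  have vαβ : A.valuation (α - β) = 1 := by
    apply crit_val_eq_one_of_sq
    rw [hdiff, ← map_pow, hδ, hvs]
  exact ⟨s, x0, y0, α, β, c, hs, hx0, hvs,
    ⟨hy, hx, hc, hsum, hprod, vx0, vy0, vα, vβ, vαβ, vc, c0⟩⟩

/-- an integer prime to `q` is a unit at a place over `q`. -/
theorem crit_val_intCast_eq_one {K : Type*} [Field K] (A : ValuationSubring K) {q : ℕ}
    (hq : q.Prime) (hA : A.LiesOverPrime q) {n : ℤ} (hn : ¬ (q : ℤ) ∣ n) :
    A.valuation (n : K) = 1 := by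
  have hcop : IsCoprime (q : ℤ) n :=
    (Prime.coprime_iff_not_dvd (Nat.prime_iff_prime_int.1 hq)).2 hn
  obtain ⟨a, b, hab⟩ := hcop
  have hle : A.valuation (n : K) ≤ 1 := (A.valuation_le_one_iff _).2 (intCast_mem A n)
  have hqv : A.valuation (q : K) < 1 := A.mem_nonunits_iff.1 hA
  refine le_antisymm hle ?_
  by_contra hcon
  push Not at hcon
  have h1 : (1 : K) = (a : K) * (q : K) + (b : K) * (n : K) := by
    have := congrArg (fun z : ℤ => (z : K)) hab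
    push_cast at this
    exact this.symm
  have h2 : A.valuation (1 : K) < 1 := by
    rw [h1]
    refine A.valuation.map_add_lt ?_ ?_
    · rw [map_mul]
      exact lt_of_le_of_lt
        (mul_le_of_le_one_left' ((A.valuation_le_one_iff _).2 (intCast_mem A a))) hqv
    · rw [map_mul]
      exact lt_of_le_of_lt
        (mul_le_of_le_one_left' ((A.valuation_le_one_iff _).2 (intCast_mem A b))) hcon
  simp at h2

theorem crit_val_intCast_lt_one {K : Type*} [Field K] (A : ValuationSubring K) {q : ℕ}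
    (hA : A.LiesOverPrime q) {n : ℤ} (hn : (q : ℤ) ∣ n) :
    A.valuation (n : K) < 1 := by
  obtain ⟨m, rfl⟩ := hn
  have hqv : A.valuation (q : K) < 1 := A.mem_nonunits_iff.1 hA
  push_cast
  rw [map_mul, mul_comm]
  exact lt_of_le_of_lt
    (mul_le_of_le_one_left' ((A.valuation_le_one_iff _).2 (intCast_mem A m))) hqv

theorem exists_nodeData (W : WeierstrassCurve ℤ) {q : ℕ} (hq : q.Prime) (hΔ0 : W.Δ ≠ 0)
    (hΔ : (q : ℤ) ∣ W.Δ) (hc₄ : ¬ (q : ℤ) ∣ W.c₄)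
    (A : ValuationSubring (AlgebraicClosure ℚ)) (hA : A.LiesOverPrime q) :
    ∃ x0 y0 α β c : AlgebraicClosure ℚ,
      NodeData A ((W.map (Int.castRingHom ℚ)).toAffine⁄(AlgebraicClosure ℚ)) x0 y0 α β c ∧
      ∀ σ : AlgebraicClosure ℚ ≃ₐ[ℚ] AlgebraicClosure ℚ, σ ∈ A.inertiaSubgroupIn ℚ →
        σ x0 = x0 ∧ σ y0 = y0 ∧ σ α = α ∧ σ β = β := by
  set W' : WeierstrassCurve.Affine (AlgebraicClosure ℚ) :=
    (W.map (Int.castRingHom ℚ)).toAffine⁄(AlgebraicClosure ℚ) with hW'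
  have e₁ : W'.a₁ = ((W.a₁ : ℤ) : AlgebraicClosure ℚ) := by simp [hW']
  have e₂ : W'.a₂ = ((W.a₂ : ℤ) : AlgebraicClosure ℚ) := by simp [hW']
  have e₃ : W'.a₃ = ((W.a₃ : ℤ) : AlgebraicClosure ℚ) := by simp [hW']
  have e₄ : W'.a₄ = ((W.a₄ : ℤ) : AlgebraicClosure ℚ) := by simp [hW']
  have e₆ : W'.a₆ = ((W.a₆ : ℤ) : AlgebraicClosure ℚ) := by simp [hW']
  have eb₂ : W'.b₂ = ((W.b₂ : ℤ) : AlgebraicClosure ℚ) := by
    change ((W.map (Int.castRingHom ℚ)).map (algebraMap ℚ (AlgebraicClosure ℚ))).b₂ = _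
    rw [WeierstrassCurve.map_b₂, WeierstrassCurve.map_b₂]; simp
  have ec₄ : W'.c₄ = ((W.c₄ : ℤ) : AlgebraicClosure ℚ) := by
    change ((W.map (Int.castRingHom ℚ)).map (algebraMap ℚ (AlgebraicClosure ℚ))).c₄ = _
    rw [WeierstrassCurve.map_c₄, WeierstrassCurve.map_c₄]; simp
  have eΔ : W'.Δ = ((W.Δ : ℤ) : AlgebraicClosure ℚ) := by
    change ((W.map (Int.castRingHom ℚ)).map (algebraMap ℚ (AlgebraicClosure ℚ))).Δ = _
    rw [WeierstrassCurve.map_Δ, WeierstrassCurve.map_Δ]; simp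
  obtain ⟨s, x0, y0, α, β, c, hs, hx0, hvs, hN⟩ := exists_nodeData_aux A W'
    (by rw [e₁]; exact intCast_mem A _) (by rw [e₂]; exact intCast_mem A _)
    (by rw [e₃]; exact intCast_mem A _) (by rw [e₄]; exact intCast_mem A _)
    (by rw [e₆]; exact intCast_mem A _)
    (by rw [ec₄]; exact crit_val_intCast_eq_one A hq hA hc₄)
    (by rw [eΔ]; exact crit_val_intCast_lt_one A hA hΔ)
    (by rw [eΔ]; exact_mod_cast hΔ0)
  refine ⟨x0, y0, α, β, c, hN, fun σ hσ => ?_⟩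
  have hs0 : s ≠ 0 := by
    rintro rfl
    simp at hvs
  -- `σ s = s`
  have hσs : σ s = s := by
    have h1 : (σ s) ^ 2 = s ^ 2 := by
      rw [← map_pow, hs, ec₄, map_intCast]
    rcases sq_eq_sq_iff_eq_or_eq_neg.1 h1 with h | h
    · exact h
    · exfalso
      have h2 := inertia_spec A σ hσ x0 hN.vx0
      have h3 : 6 * (σ x0 - x0) = -s := by
        have h4 : σ s = W'.b₂ + 12 * σ x0 := by
          conv_lhs => rw [hx0]
          rw [map_add, map_mul, eb₂, map_intCast, map_ofNat]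
        have : 12 * (σ x0 - x0) = 2 * -s := by
          linear_combination h - h4 + hx0
        linear_combination (1 / 2) * this
      have h5 : A.valuation (6 * (σ x0 - x0)) < 1 := by
        rw [map_mul]
        refine lt_of_le_of_lt (mul_le_of_le_one_left' ((A.valuation_le_one_iff _).2 ?_)) h2
        exact_mod_cast natCast_mem A 6
      rw [h3, Valuation.map_neg, hvs] at h5
      exact lt_irrefl _ h5
  have hσx : σ x0 = x0 := by
    have h4 : σ s = W'.b₂ + 12 * σ x0 := by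
      conv_lhs => rw [hx0]
      rw [map_add, map_mul, eb₂, map_intCast, map_ofNat]
    have : 12 * σ x0 = 12 * x0 := by linear_combination hσs - h4 + hx0
    exact mul_left_cancel₀ (by norm_num) this
  have hσy : σ y0 = y0 := by
    have h1 := congrArg σ hN.hy
    rw [map_add, map_add, map_mul, map_mul, map_zero, e₁, e₃, map_intCast, map_intCast,
      map_ofNat, hσx, ← e₁, ← e₃] at h1
    have : 2 * σ y0 = 2 * y0 := by linear_combination h1 - hN.hy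
    exact mul_left_cancel₀ (by norm_num) this
  -- roots of the quadratic
  have hroot : ∀ t : AlgebraicClosure ℚ, t ^ 2 + W'.a₁ * t - (W'.a₂ + 3 * x0) = (t - α) * (t - β) := by
    intro t
    linear_combination t * hN.hsum - hN.hprod
  have hσroot : ∀ t : AlgebraicClosure ℚ, t ^ 2 + W'.a₁ * t - (W'.a₂ + 3 * x0) = 0 →
      (σ t) ^ 2 + W'.a₁ * σ t - (W'.a₂ + 3 * x0) = 0 := by
    intro t ht
    have h1 := congrArg σ ht
    rw [map_sub, map_add, map_add, map_mul, map_mul, map_pow, map_zero, e₁, e₂, map_intCast,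
      map_intCast, map_ofNat, hσx, ← e₁, ← e₂] at h1
    exact h1
  have hσα : σ α = α := by
    have h1 := hσroot α (by rw [hroot]; ring)
    rw [hroot] at h1
    rcases mul_eq_zero.1 h1 with h | h
    · exact sub_eq_zero.1 h
    · exfalso
      have h2 := inertia_spec A σ hσ α hN.vα
      rw [sub_eq_zero.1 h, ← Valuation.map_neg, neg_sub, hN.vαβ] at h2
      exact lt_irrefl _ h2
  have hσβ : σ β = β := by
    have h1 := hσroot β (by rw [hroot]; ring)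
    rw [hroot] at h1
    rcases mul_eq_zero.1 h1 with h | h
    · exfalso
      have h2 := inertia_spec A σ hσ β hN.vβ
      rw [sub_eq_zero.1 h, hN.vαβ] at h2
      exact lt_irrefl _ h2
    · exact sub_eq_zero.1 h
  exact ⟨hσx, hσy, hσα, hσβ⟩

end Fermat.Agent.HW
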