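import Fermat.Agent.HW.Pow.Node
import Fermat.Agent.HW.Pow.Crit
import Fermat.Agent.S13.WPD

/-!
# HW phase 3: inertia on `E[m]` (`m` odd, `q ∤ m`) in the language of the Prelude

* `inertia_trivial_odd` : good reduction at `q` ⟹ inertia at `q` acts trivially on `E[m]`;
* `inertia_unipotent_odd` : `q ∣ Δ`, `q ∤ c₄` ⟹ `(τ - 1)(σ - 1) = 0` on `E[m]` for `σ, τ` in inertia at `q`;
* `inertia_unipotent_of_semistable` : both cases together.
-/

set_option autoImplicit false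

namespace Fermat.Agent.HW

open WeierstrassCurve WeierstrassCurve.Affine WeierstrassCurve.Affine.Point
open Fermat.Agent.S05
open scoped WeierstrassCurve.Affine

local notation "Qb" => AlgebraicClosure ℚ

/-- the curve over `ℚbar` attached to an integral model. -/
noncomputable abbrev EQb (W : WeierstrassCurve ℤ) : WeierstrassCurve.Affine Qb :=
  (W.map (Int.castRingHom ℚ)).toAffine⁄Qb

theorem intData_EQb (W : WeierstrassCurve ℤ) (A : ValuationSubring Qb) : IntData A (EQb W) := by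
  have key : ∀ n : ℤ, algebraMap ℚ Qb ((Int.castRingHom ℚ) n) ∈ A := by
    intro n
    have : algebraMap ℚ Qb ((Int.castRingHom ℚ) n) = (n : Qb) := by simp
    rw [this]; exact intCast_mem A n
  exact ⟨key _, key _, key _, key _, key _⟩

theorem galData_EQb (W : WeierstrassCurve ℤ) (A : ValuationSubring Qb) {σ : Qb ≃ₐ[ℚ] Qb}
    (hσ : σ ∈ A.inertiaSubgroupIn ℚ) :
    GalData A (EQb W) (σ : Qb →+* Qb)
      (Point.map (W' := (W.map (Int.castRingHom ℚ)).toAffine) σ.toAlgHom) := by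
  refine ⟨?_, ?_⟩
  · intro Q hQ
    cases Q with
    | zero => exact absurd rfl hQ
    | some x y h =>
      rw [Point.map_some]
      exact ⟨some_ne_zero _, rfl, rfl⟩
  · intro x hx
    exact inertia_spec A σ hσ x hx

theorem Δ_EQb (W : WeierstrassCurve ℤ) : (EQb W).Δ = ((W.Δ : ℤ) : Qb) := by
  have h1 : (EQb W).Δ = algebraMap ℚ Qb ((Int.castRingHom ℚ) W.Δ) := by
    show ((W.map (Int.castRingHom ℚ)).map (algebraMap ℚ Qb)).Δ = _
    rw [WeierstrassCurve.map_Δ, WeierstrassCurve.map_Δ]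
  rw [h1]; simp

theorem inertia_trivial_odd (W : WeierstrassCurve ℤ) {q m : ℕ} (hq : q.Prime)
    (hgood : W.IsGoodPrimeFor q) (hm : Odd m) (hqm : ¬ q ∣ m)
    (A : ValuationSubring Qb) (hA : A.LiesOverPrime q)
    (σ : Qb ≃ₐ[ℚ] Qb) (hσ : σ ∈ A.inertiaSubgroupIn ℚ)
    (P : (EQb W).Point) (hP : m • P = 0) : σ • P = P := by
  classical
  have hqA : A.valuation ((q : ℕ) : Qb) < 1 := hA
  have D : OddData A m q := ⟨hm, hq, hqm, hqA⟩
  refine fixed_good_odd (intData_EQb W A) D (galData_EQb W A hσ) ?_ hP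
  rw [Δ_EQb]
  exact valuation_intCast_eq_one A hq hqA hgood

theorem inertia_unipotent_odd (W : WeierstrassCurve ℤ) {q m : ℕ} (hq : q.Prime) (hΔ0 : W.Δ ≠ 0)
    (hΔ : (q : ℤ) ∣ W.Δ) (hc₄ : ¬ (q : ℤ) ∣ W.c₄) (hm : Odd m) (hqm : ¬ q ∣ m)
    (A : ValuationSubring Qb) (hA : A.LiesOverPrime q)
    (σ τ : Qb ≃ₐ[ℚ] Qb) (hσ : σ ∈ A.inertiaSubgroupIn ℚ) (hτ : τ ∈ A.inertiaSubgroupIn ℚ)
    (P : (EQb W).Point) (hP : m • P = 0) : τ • (σ • P - P) = σ • P - P := by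
  classical
  have hqA : A.valuation ((q : ℕ) : Qb) < 1 := hA
  have D : OddData A m q := ⟨hm, hq, hqm, hqA⟩
  obtain ⟨x0, y0, α, β, c, N, hinv⟩ := exists_nodeData W hq hΔ0 hΔ hc₄ A hA
  obtain ⟨h1, h2, h3, h4⟩ := hinv σ hσ
  exact N.unipotent (intData_EQb W A) D (galData_EQb W A hσ) (galData_EQb W A hτ)
    (fun z => Fermat.Agent.S13.val_eq_of_decomp A σ (Fermat.Agent.S13.inertia_le_decomp A hσ) z)
    h1 h2 h3 h4 hP

theorem inertia_unipotent_of_semistable (W : WeierstrassCurve ℤ) (hss : W.IsSemistableModel)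
    (hΔ0 : W.Δ ≠ 0) {q m : ℕ} (hq : q.Prime) (hm : Odd m) (hqm : ¬ q ∣ m)
    (A : ValuationSubring Qb) (hA : A.LiesOverPrime q)
    (σ τ : Qb ≃ₐ[ℚ] Qb) (hσ : σ ∈ A.inertiaSubgroupIn ℚ) (hτ : τ ∈ A.inertiaSubgroupIn ℚ)
    (P : (EQb W).Point) (hP : m • P = 0) : τ • (σ • P - P) = σ • P - P := by
  by_cases hΔ : (q : ℤ) ∣ W.Δ
  · exact inertia_unipotent_odd W hq hΔ0 hΔ (hss q hq hΔ) hm hqm A hA σ τ hσ hτ P hP
  · rw [inertia_trivial_odd W hq hΔ hm hqm A hA σ hσ P hP, sub_self, smul_zero]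

end Fermat.Agent.HW
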