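import Fermat.Agent.S05.Main
import Fermat.Agent.HW.Pow.Integral

/-!
# HW phase 3: inertia fixes `m`-torsion points with nonsingular reduction (`m` odd, prime to `q`)

Generalisation of `S05.fixed_of_nonsingular_red`, `S05.fixed_good` from prime `p` to odd `m`.
-/

set_option autoImplicit false

namespace Fermat.Agent.HW

open WeierstrassCurve WeierstrassCurve.Affine WeierstrassCurve.Affine.Point
open Fermat.Agent.S05

variable {K : Type*} [Field K] [DecidableEq K] {A : ValuationSubring K}
  {W : WeierstrassCurve.Affine K}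

/-- arithmetic data: `m` odd, prime to the residue characteristic `q`. -/
structure OddData (A : ValuationSubring K) (m q : ℕ) : Prop where
  hm : Odd m
  hq : q.Prime
  hmq : ¬ q ∣ m
  hqA : A.valuation (q : K) < 1

variable {m q : ℕ}

lemma tors_x_odd (I : IntData A W) (D : OddData A m q) {R : W.Point} (hR : R ≠ 0)
    (hmR : m • R = 0) : A.valuation (xc R) ≤ 1 :=
  torsion_x_integral_odd A m q D.hm D.hq D.hmq D.hqA I.b₂ I.b₄ I.b₆ I.b₈ hR hmR

lemma tors_y_odd (I : IntData A W) (D : OddData A m q) {R : W.Point} (hR : R ≠ 0)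
    (hmR : m • R = 0) : A.valuation (yc R) ≤ 1 :=
  y_integral A I.h₁ I.h₂ I.h₃ I.h₄ I.h₆ hR (tors_x_odd I D hR hmR)

variable {σ : K →+* K} {s : W.Point →+ W.Point}

/-- An `m`-torsion point with nonsingular reduction is fixed. -/
lemma fixed_of_nonsingular_red_odd (I : IntData A W) (D : OddData A m q) (G : GalData A W σ s)
    {P : W.Point} (hP : P ≠ 0) (hmP : m • P = 0)
    (hns : A.valuation (W.a₁ * yc P - (3 * xc P ^ 2 + 2 * W.a₂ * xc P + W.a₄)) = 1 ∨
      A.valuation (2 * yc P + W.a₁ * xc P + W.a₃) = 1) : s P = P := by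
  obtain ⟨hs0, hsx, hsy⟩ := G.hs P hP
  have hx := tors_x_odd I D hP hmP
  have hy := tors_y_odd I D hP hmP
  have key := sub_eq_zero_or_nonintegral A.valuation
    ((A.valuation_le_one_iff _).2 I.h₁) ((A.valuation_le_one_iff _).2 I.h₂)
    ((A.valuation_le_one_iff _).2 I.h₃) ((A.valuation_le_one_iff _).2 I.h₄)
    hs0 hP (by rw [hsx]; exact G.val_le hx) (by rw [hsy]; exact G.val_le hy) hx hy
    (by rw [hsx]; exact G.hσ _ hx) (by rw [hsy]; exact G.hσ _ hy) hns
  by_contra hne
  have hne' : s P - P ≠ 0 := sub_ne_zero.2 hne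
  rcases key with h | h
  · exact hne' h
  · have hp0 : m • (s P - P) = 0 := by
      rw [smul_sub, ← map_nsmul, hmP, _root_.map_zero, sub_zero]
    exact absurd (tors_x_odd I D hne' hp0) (not_le.2 h)

/-- **Good reduction.** -/
theorem fixed_good_odd (I : IntData A W) (D : OddData A m q) (G : GalData A W σ s)
    (hΔ : A.valuation W.Δ = 1) {P : W.Point} (hmP : m • P = 0) : s P = P := by
  by_cases hP : P = 0
  · rw [hP, _root_.map_zero]
  · exact fixed_of_nonsingular_red_odd I D G hP hmP
      (hns_of_unit_disc A I.h₁ I.h₂ I.h₃ I.h₄ hΔ hP (tors_x_odd I D hP hmP)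
        (tors_y_odd I D hP hmP))

/-- if `2 • P` is fixed and `P` has odd order, then `P` is fixed. -/
lemma fixed_of_two_nsmul (hm : Odd m) {P : W.Point} (hmP : m • P = 0)
    (h : s (P + P) = P + P) : s P = P := by
  have h2 : 2 • (s P - P) = 0 := by
    rw [smul_sub, two_smul, two_smul, ← map_add, h, sub_self]
  have h1 : m • (s P - P) = 0 := by
    rw [smul_sub, ← map_nsmul, hmP, _root_.map_zero, sub_zero]
  obtain ⟨k, hk⟩ := hm
  rw [hk, add_smul, mul_comm, mul_smul, h2, smul_zero, zero_add, one_smul] at h1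
  exact sub_eq_zero.1 h1

end Fermat.Agent.HW
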