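import Fermat.Agent.HW.Pow.NodeDefs
import Fermat.Agent.S13.Unip2

/-!
# HW phase 3: multiplicative reduction ⟹ inertia acts unipotently on `E[m]` (`m` odd, `q ∤ m`)

Notation: `X P = xc P - x0`, `Y P = yc P - y0`, `f = Y - αX`, `g = Y - βX`, `v = A.valuation`.
`N1`  `f g = X³ + c`,  `f - g = (β-α) X`.
`N2`  `v X = 1` (integral point) ⟹ nonsingular reduction.
      [`X F_X + Y F_Y = -X³ + 2c` where `F_Y = 2Y + a₁X = 2y+a₁x+a₃`, `-F_X = a₁Y - 3X² - 2a₂'X`.]
`N3`  (middle) `v X < 1`, `v f = v g` ⟹ `1 ≤ v (X (2P))`.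
      [`v X ≤ v f`, `v f ² = v (X³+c)` ⟹ `v X ² ≤ v c`;  `X(2P) (4X³ + sX² + 4c) = X⁴ - 8cX - sc`,
       `s = (α-β)²`: the numerator has valuation `v c`, the denominator `≤ v c`.]
`N4`  (branch) `v g < v f` ⟹ `s P = P ∨ 1 ≤ v (X (sP - P))`.
      [`v X = v f`.  `X' = σ X`, `g' = σ g`.  If `X' = X`: `sP = ±P`, and `sP = -P` gives `σ g = -f`, impossible.
       Otherwise `l (X'-X) = Y'+Y+a₁X`, `X(sP-P) = (l-α)(l-β) - X - X'`,
       `(l-α)(X'-X) = g+g'+(β-α)X'`, `(l-β)(X'-X) = g+g'+(β-α)X`: both of valuation `v X ≥ v (X'-X)`.]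
`N5`  assembly.
-/

set_option autoImplicit false
set_option linter.unusedVariables false

namespace Fermat.Agent.HW

open WeierstrassCurve WeierstrassCurve.Affine WeierstrassCurve.Affine.Point
open Fermat.Agent.S05

variable {K : Type*} [Field K] {A : ValuationSubring K}
  {W : WeierstrassCurve.Affine K} {x0 y0 α β c : K}

namespace NodeData

theorem symm (N : NodeData A W x0 y0 α β c) : NodeData A W x0 y0 β α c :=
  { N with
    hsum := by rw [add_comm]; exact N.hsum
    hprod := by rw [mul_comm]; exact N.hprod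
    vα := N.vβ
    vβ := N.vα
    vαβ := by rw [← N.vαβ, ← Valuation.map_neg, neg_sub] }

/-- `N1` -/
theorem eqn (N : NodeData A W x0 y0 α β c) {P : W.Point} (hP : P ≠ 0) :
    ((yc P - y0) - α * (xc P - x0)) * ((yc P - y0) - β * (xc P - x0)) = (xc P - x0) ^ 3 + c := by
  have e := equation_xc_yc hP
  linear_combination e - (xc P - x0) * (yc P - y0) * N.hsum + (xc P - x0) ^ 2 * N.hprod
    - (yc P - y0) * N.hy - (xc P - x0) * N.hx - N.hc

theorem a₁_eq (N : NodeData A W x0 y0 α β c) : W.a₁ = -(α + β) := by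
  linear_combination N.hsum
theorem a₂_eq (N : NodeData A W x0 y0 α β c) : W.a₂ = -(α * β) - 3 * x0 := by
  linear_combination N.hprod
theorem a₃_eq (N : NodeData A W x0 y0 α β c) : W.a₃ = -2 * y0 + (α + β) * x0 := by
  linear_combination N.hy - x0 * N.hsum
theorem a₄_eq (N : NodeData A W x0 y0 α β c) :
    W.a₄ = -(α + β) * y0 - 3 * x0 ^ 2 - 2 * (-(α * β) - 3 * x0) * x0 := by
  linear_combination -N.hx + y0 * N.hsum - 2 * x0 * N.hprod
theorem a₆_eq (N : NodeData A W x0 y0 α β c) :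
    W.a₆ = c - x0 ^ 3 - (-(α * β) - 3 * x0) * x0 ^ 2
      - (-(α + β) * y0 - 3 * x0 ^ 2 - 2 * (-(α * β) - 3 * x0) * x0) * x0
      + y0 ^ 2 + -(α + β) * x0 * y0 + (-2 * y0 + (α + β) * x0) * y0 := by
  have h := N.hc
  rw [N.a₄_eq, N.a₃_eq, N.a₂_eq, N.a₁_eq] at h
  linear_combination -h

/-- `N2` -/
theorem hns_of_unit (N : NodeData A W x0 y0 α β c) (I : IntData A W) {P : W.Point} (hP : P ≠ 0)
    (hx : A.valuation (xc P) ≤ 1) (hy : A.valuation (yc P) ≤ 1)
    (hX : A.valuation (xc P - x0) = 1) :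
    A.valuation (W.a₁ * yc P - (3 * xc P ^ 2 + 2 * W.a₂ * xc P + W.a₄)) = 1 ∨
      A.valuation (2 * yc P + W.a₁ * xc P + W.a₃) = 1 := by
  have e := equation_xc_yc hP
  have v₁ := (A.valuation_le_one_iff _).2 I.h₁
  have v₂ := (A.valuation_le_one_iff _).2 I.h₂
  have v₃ := (A.valuation_le_one_iff _).2 I.h₃
  have v₄ := (A.valuation_le_one_iff _).2 I.h₄
  have w2 : A.valuation (2 : K) ≤ 1 := by exact_mod_cast valuation_natCast_le_one A 2
  have w3 : A.valuation (3 : K) ≤ 1 := by exact_mod_cast valuation_natCast_le_one A 3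
  have hYv : A.valuation (yc P - y0) ≤ 1 := Valuation.map_sub_le _ hy N.vy0
  set FX := W.a₁ * yc P - (3 * xc P ^ 2 + 2 * W.a₂ * xc P + W.a₄) with hFX
  set FY := 2 * yc P + W.a₁ * xc P + W.a₃ with hFY
  have hFXle : A.valuation FX ≤ 1 := by
    refine val_sub_le_one _ (val_mul_le_one _ v₁ hy) (val_add_le_one _ (val_add_le_one _
      (val_mul_le_one _ w3 ?_) (val_mul_le_one _ (val_mul_le_one _ w2 v₂) hx)) v₄)
    rw [map_pow]; exact pow_le_one₀ zero_le hx
  have hFYle : A.valuation FY ≤ 1 :=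
    val_add_le_one _ (val_add_le_one _ (val_mul_le_one _ w2 hy) (val_mul_le_one _ v₁ hx)) v₃
  by_contra hcon
  push Not at hcon
  have h1 : A.valuation FX < 1 := lt_of_le_of_ne hFXle hcon.1
  have h2 : A.valuation FY < 1 := lt_of_le_of_ne hFYle hcon.2
  have key : (xc P - x0) ^ 3 = 2 * c - (xc P - x0) * FX - (yc P - y0) * FY := by
    rw [hFX, hFY]
    linear_combination 2 * e - (yc P - y0) * N.hy - (xc P - x0) * N.hx - 2 * N.hc
  have h3 : A.valuation ((xc P - x0) ^ 3) < 1 := by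
    rw [key]
    exact val_sub_lt_one _ (val_sub_lt_one _ (val_mul_lt_one_right _ w2 N.vc)
      (val_mul_lt_one_right _ hX.le h1)) (val_mul_lt_one_right _ hYv h2)
  rw [map_pow, hX, one_pow] at h3
  exact lt_irrefl _ h3
variable [DecidableEq K]

theorem dbl (N : NodeData A W x0 y0 α β c) {P : W.Point} (hP : P ≠ 0) (h2P : P + P ≠ 0) :
    (xc (P + P) - x0) * (4 * (xc P - x0) ^ 3 + (α - β) ^ 2 * (xc P - x0) ^ 2 + 4 * c)
      = (xc P - x0) ^ 4 - 8 * c * (xc P - x0) - (α - β) ^ 2 * c := by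
  have h := xc_dbl hP h2P
  simp only [b₂, b₄, b₆, b₈] at h
  rw [N.a₆_eq, N.a₄_eq, N.a₃_eq, N.a₂_eq, N.a₁_eq] at h
  linear_combination h

/-- `N3` -/
theorem middle (N : NodeData A W x0 y0 α β c) {P : W.Point} (hP : P ≠ 0) (h2P : P + P ≠ 0)
    (hX : A.valuation (xc P - x0) < 1)
    (hfg : A.valuation ((yc P - y0) - α * (xc P - x0))
      = A.valuation ((yc P - y0) - β * (xc P - x0))) :
    1 ≤ A.valuation (xc (P + P) - x0) := by
  have e1 := N.eqn hP
  have hd := N.dbl hP h2P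
  obtain ⟨X, hXdef⟩ : ∃ X, X = xc P - x0 := ⟨_, rfl⟩
  obtain ⟨f, hfdef⟩ : ∃ f, f = (yc P - y0) - α * (xc P - x0) := ⟨_, rfl⟩
  obtain ⟨g, hgdef⟩ : ∃ g, g = (yc P - y0) - β * (xc P - x0) := ⟨_, rfl⟩
  obtain ⟨X₂, hX₂def⟩ : ∃ X₂, X₂ = xc (P + P) - x0 := ⟨_, rfl⟩
  have e2 : (α - β) * X = g - f := by rw [hXdef, hfdef, hgdef]; ring
  rw [← hfdef, ← hgdef] at e1 hfg
  rw [← hXdef] at e1 hX hd
  rw [← hX₂def] at hd ⊢
  set v := A.valuation with hv
  have hvc0 : 0 < v c := zero_lt_iff.2 ((v.ne_zero_iff).2 N.c0)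
  have hXf : v X ≤ v f := by
    have h1 : v ((α - β) * X) = v X := by rw [map_mul, N.vαβ, one_mul]
    rw [← h1, e2]
    exact Valuation.map_sub_le _ hfg.symm.le le_rfl
  have hff : v f ^ 2 = v (X ^ 3 + c) := by
    rw [← e1, map_mul, ← hfg, sq]
  have hX3c : v (X ^ 3) ≤ v c := by
    by_contra hcon
    rw [not_le] at hcon
    have h1 : v (X ^ 3 + c) = v (X ^ 3) := Valuation.map_add_eq_of_lt_left _ hcon
    have hX0 : 0 < v X := by
      rw [zero_lt_iff]
      intro h0
      rw [map_pow, h0] at hcon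
      simp at hcon
    have h2 : v X ^ 2 ≤ v X ^ 3 := by
      calc v X ^ 2 ≤ v f ^ 2 := pow_le_pow_left₀ zero_le hXf 2
        _ = v X ^ 3 := by rw [hff, h1, map_pow]
    have h3 : v X ^ 3 < v X ^ 2 := pow_lt_pow_right_of_lt_one₀ hX0 hX (by norm_num)
    exact absurd h2 (not_le.2 h3)
  have hX2c : v X ^ 2 ≤ v c := by
    calc v X ^ 2 ≤ v f ^ 2 := pow_le_pow_left₀ zero_le hXf 2
      _ = v (X ^ 3 + c) := hff
      _ ≤ v c := Valuation.map_add_le _ hX3c le_rfl
  have hs : v ((α - β) ^ 2) = 1 := by rw [map_pow, N.vαβ, one_pow]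
  have w4 : v (4 : K) ≤ 1 := by exact_mod_cast valuation_natCast_le_one A 4
  have w8 : v (8 : K) ≤ 1 := by exact_mod_cast valuation_natCast_le_one A 8
  have hnum : v (X ^ 4 - 8 * c * X - (α - β) ^ 2 * c) = v c := by
    have h1 : v ((α - β) ^ 2 * c) = v c := by rw [map_mul, hs, one_mul]
    have h2 : v (X ^ 4) < v c := by
      have : v (X ^ 4) = (v X ^ 2) ^ 2 := by rw [map_pow, ← pow_mul]
      rw [this]
      calc (v X ^ 2) ^ 2 ≤ v c ^ 2 := pow_le_pow_left₀ zero_le hX2c 2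
        _ < v c ^ 1 := pow_lt_pow_right_of_lt_one₀ hvc0 N.vc (by norm_num)
        _ = v c := pow_one _
    have h3 : v (8 * c * X) < v c := by
      rw [map_mul, map_mul]
      calc v 8 * v c * v X ≤ 1 * v c * v X := by gcongr
        _ = v c * v X := by rw [one_mul]
        _ < v c * 1 := by gcongr
        _ = v c := mul_one _
    rw [Valuation.map_sub_eq_of_lt_right, h1]
    rw [h1]
    exact Valuation.map_sub_lt _ h2 h3
  have hden : v (4 * X ^ 3 + (α - β) ^ 2 * X ^ 2 + 4 * c) ≤ v c := by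
    refine Valuation.map_add_le _ (Valuation.map_add_le _ ?_ ?_) ?_
    · rw [map_mul]; exact (mul_le_of_le_one_left' w4).trans hX3c
    · rw [map_mul, hs, one_mul, map_pow]; exact hX2c
    · rw [map_mul]; exact mul_le_of_le_one_left' w4
  by_contra hcon
  rw [not_le] at hcon
  have h5 := congrArg v hd
  rw [map_mul, hnum] at h5
  have h6 : v X₂ * v (4 * X ^ 3 + (α - β) ^ 2 * X ^ 2 + 4 * c) < v c := by
    calc v X₂ * v (4 * X ^ 3 + (α - β) ^ 2 * X ^ 2 + 4 * c) ≤ v X₂ * v c := by gcongr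
      _ < 1 * v c := by gcongr
      _ = v c := one_mul _
  rw [h5] at h6
  exact lt_irrefl _ h6

variable {σ : K →+* K} {s : W.Point →+ W.Point}

/-- `N4` -/
theorem branch (N : NodeData A W x0 y0 α β c)
    (hs : ∀ P : W.Point, P ≠ 0 → s P ≠ 0 ∧ xc (s P) = σ (xc P) ∧ yc (s P) = σ (yc P))
    (hv : ∀ x, A.valuation (σ x) = A.valuation x)
    (hσx0 : σ x0 = x0) (hσy0 : σ y0 = y0) (hσα : σ α = α) (hσβ : σ β = β)
    {P : W.Point} (hP : P ≠ 0) (hX : A.valuation (xc P - x0) < 1)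
    (hfg : A.valuation ((yc P - y0) - β * (xc P - x0))
      < A.valuation ((yc P - y0) - α * (xc P - x0))) :
    s P = P ∨ 1 ≤ A.valuation (xc (s P - P) - x0) := by
  obtain ⟨hs0, hsx, hsy⟩ := hs P hP
  obtain ⟨X, hXdef⟩ : ∃ X, X = xc P - x0 := ⟨_, rfl⟩
  obtain ⟨Y, hYdef⟩ : ∃ Y, Y = yc P - y0 := ⟨_, rfl⟩
  obtain ⟨f, hfdef⟩ : ∃ f, f = Y - α * X := ⟨_, rfl⟩
  obtain ⟨g, hgdef⟩ : ∃ g, g = Y - β * X := ⟨_, rfl⟩
  rw [← hXdef, ← hYdef, ← hfdef, ← hgdef] at hfg
  rw [← hXdef] at hX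
  have hX' : xc (s P) - x0 = σ X := by rw [hXdef, map_sub, hσx0, hsx]
  have hY' : yc (s P) - y0 = σ Y := by rw [hYdef, map_sub, hσy0, hsy]
  have hg' : σ g = σ Y - β * σ X := by rw [hgdef, map_sub, map_mul, hσβ]
  set v := A.valuation with hvdef
  have hβα : v (β - α) = 1 := by rw [← N.vαβ, ← Valuation.map_neg, neg_sub]
  have e2 : (β - α) * X = f - g := by rw [hfdef, hgdef]; ring
  have hXf : v X = v f := by
    have h1 : v ((β - α) * X) = v X := by rw [map_mul, hβα, one_mul]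
    rw [← h1, e2]
    exact Valuation.map_sub_eq_of_lt_left _ hfg
  have hgX : v g < v X := by rw [hXf]; exact hfg
  have hXpos : 0 < v X := lt_of_le_of_lt zero_le hgX
  by_cases hxx : xc (s P) = xc P
  · rcases (xc_eq_iff hs0 hP).1 hxx with h | h
    · exact Or.inl h
    · exfalso
      have hy1 : yc (s P) = W.negY (xc P) (yc P) := by rw [h, yc_neg hP]
      have hσX : σ X = X := by rw [← hX', hxx, hXdef]
      have hσY : σ Y = -Y - W.a₁ * X := by
        rw [← hY', hy1, negY, hYdef, hXdef]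
        linear_combination (-1 : K) * N.hy
      have h1 : σ g = -f := by
        rw [hg', hσX, hσY, hfdef]
        linear_combination (-X) * N.hsum
      have h2 : v g = v f := by rw [← hv g, h1, Valuation.map_neg]
      exact absurd h2 hfg.ne
  · right
    obtain ⟨l, hl1, hl2⟩ := Fermat.Agent.S13.xc_sub_of_ne hs0 hP hxx
    obtain ⟨D, hDdef⟩ : ∃ D, D = σ X - X := ⟨_, rfl⟩
    have hD : xc (s P) - xc P = D := by rw [hDdef, ← hX', hXdef]; ring
    have hD0 : D ≠ 0 := by rw [← hD]; exact sub_ne_zero.2 hxx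
    have hDpos : 0 < v D := zero_lt_iff.2 ((v.ne_zero_iff).2 hD0)
    rw [hD] at hl1
    have hnum : yc (s P) + yc P + W.a₁ * xc P + W.a₃ = σ Y + Y + W.a₁ * X := by
      rw [← hY', hYdef, hXdef]
      linear_combination N.hy
    rw [hnum] at hl1
    have hA : (l - α) * D = (g + σ g) + (β - α) * σ X := by
      rw [hg', hgdef, sub_mul, hl1, hDdef]
      linear_combination X * N.hsum
    have hB : (l - β) * D = (g + σ g) + (β - α) * X := by
      rw [hg', hgdef, sub_mul, hl1, hDdef]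
      linear_combination X * N.hsum
    have hgg : v (g + σ g) < v X := Valuation.map_add_lt _ hgX (by rw [hv]; exact hgX)
    have hvA : v ((l - α) * D) = v X := by
      rw [hA, Valuation.map_add_eq_of_lt_right, map_mul, hβα, one_mul, hv]
      rw [map_mul, hβα, one_mul, hv]; exact hgg
    have hvB : v ((l - β) * D) = v X := by
      rw [hB, Valuation.map_add_eq_of_lt_right, map_mul, hβα, one_mul]
      rw [map_mul, hβα, one_mul]; exact hgg
    have hDX : v D ≤ v X := by
      rw [hDdef]; exact Valuation.map_sub_le _ (hv X).le le_rfl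
    have hone : ∀ z : K, v (z * D) = v X → 1 ≤ v z := by
      intro z hz
      by_contra hcon
      rw [not_le] at hcon
      rw [map_mul] at hz
      have : v z * v D < v X := by
        calc v z * v D < 1 * v D := by gcongr
          _ = v D := one_mul _
          _ ≤ v X := hDX
      exact absurd hz this.ne
    have h1 := hone _ hvA
    have h2 := hone _ hvB
    have hXR : xc (s P - P) - x0 = (l - α) * (l - β) - (X + σ X) := by
      rw [hl2, ← hX', hXdef]
      linear_combination l * N.hsum - N.hprod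
    have h3 : v (X + σ X) < 1 := Valuation.map_add_lt _ hX (by rw [hv]; exact hX)
    have h4 : 1 ≤ v ((l - α) * (l - β)) := by
      rw [map_mul]; exact one_le_mul_of_one_le_of_one_le h1 h2
    rw [hXR, Valuation.map_sub_eq_of_lt_left _ (lt_of_lt_of_le h3 h4)]
    exact h4

variable {m q : ℕ}

/-- `N5`: **unipotency of inertia on `m`-torsion at a multiplicative place** (abstract form). -/
theorem unipotent (N : NodeData A W x0 y0 α β c) (I : IntData A W) (D : OddData A m q)
    (G : GalData A W σ s) {τ : K →+* K} {t : W.Point →+ W.Point} (G' : GalData A W τ t)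
    (hv : ∀ x, A.valuation (σ x) = A.valuation x)
    (hσx0 : σ x0 = x0) (hσy0 : σ y0 = y0) (hσα : σ α = α) (hσβ : σ β = β)
    {P : W.Point} (hmP : m • P = 0) : t (s P - P) = s P - P := by
  by_cases hP : P = 0
  · rw [hP, _root_.map_zero, sub_zero, _root_.map_zero]
  have hzero : s P = P → t (s P - P) = s P - P := by
    intro h; rw [h, sub_self, _root_.map_zero]
  have hx := tors_x_odd I D hP hmP
  have hy := tors_y_odd I D hP hmP
  -- a nonzero `m`-torsion point `R` with `1 ≤ v (X R)` is fixed by any inertia-like element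
  have hfix : ∀ {τ' : K →+* K} {t' : W.Point →+ W.Point} (_ : GalData A W τ' t') {R : W.Point},
      R ≠ 0 → m • R = 0 → 1 ≤ A.valuation (xc R - x0) → t' R = R := by
    intro τ' t' G'' R hR hmR h1
    have hxR := tors_x_odd I D hR hmR
    have hyR := tors_y_odd I D hR hmR
    exact fixed_of_nonsingular_red_odd I D G'' hR hmR
      (N.hns_of_unit I hR hxR hyR (le_antisymm (Valuation.map_sub_le _ hxR N.vx0) h1))
  have hbr : (s P = P ∨ 1 ≤ A.valuation (xc (s P - P) - x0)) → t (s P - P) = s P - P := by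
    rintro (h | h)
    · exact hzero h
    · by_cases hR : s P - P = 0
      · rw [hR, _root_.map_zero]
      · refine hfix G' hR ?_ h
        rw [smul_sub, ← map_nsmul, hmP, _root_.map_zero, sub_zero]
  rcases (Valuation.map_sub_le _ hx N.vx0 : A.valuation (xc P - x0) ≤ 1).lt_or_eq with hX | hX
  · rcases lt_trichotomy (A.valuation ((yc P - y0) - β * (xc P - x0)))
      (A.valuation ((yc P - y0) - α * (xc P - x0))) with h | h | h
    · exact hbr (N.branch G.hs hv hσx0 hσy0 hσα hσβ hP hX h)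
    · -- middle
      have h2P : P + P ≠ 0 := by
        intro h0
        apply hP
        have h2 : 2 • P = 0 := by rw [two_smul]; exact h0
        obtain ⟨k, hk⟩ := D.hm
        rw [hk, add_smul, mul_comm, mul_smul, h2, smul_zero, zero_add, one_smul] at hmP
        exact hmP
      apply hzero
      apply fixed_of_two_nsmul D.hm hmP
      exact hfix G h2P (by rw [smul_add, hmP, add_zero]) (N.middle hP h2P hX h.symm)
    · exact hbr (N.symm.branch G.hs hv hσx0 hσy0 hσβ hσα hP hX h)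
  · exact hzero (hfix G hP hmP hX.ge)

end NodeData

end Fermat.Agent.HW
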