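import Fermat.Agent.HW.Pow.Fixed

/-!
# HW phase 3: multiplicative reduction, the exact critical point (definitions)

`W : y² + a₁xy + a₃y = x³ + a₂x² + a₄x + a₆` over a valued field `K`, integral coefficients.
`(x0,y0)` = an EXACT common zero of the two partial derivatives (so that in the coordinates
`X = x - x0`, `Y = y - y0` the curve is `Y² + a₁XY = X³ + (a₂+3x0)X² + c`, i.e.
`(Y - αX)(Y - βX) = X³ + c`), `α, β` = the two tangent directions, distinct in the residue field,
`c` in the maximal ideal.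
-/

set_option autoImplicit false

namespace Fermat.Agent.HW

open WeierstrassCurve WeierstrassCurve.Affine WeierstrassCurve.Affine.Point
open Fermat.Agent.S05

variable {K : Type*} [Field K]

/-- exact critical point data for a curve with multiplicative reduction. -/
structure NodeData (A : ValuationSubring K) (W : WeierstrassCurve.Affine K) (x0 y0 α β c : K) :
    Prop where
  hy : 2 * y0 + W.a₁ * x0 + W.a₃ = 0
  hx : W.a₁ * y0 - (3 * x0 ^ 2 + 2 * W.a₂ * x0 + W.a₄) = 0
  hc : c = x0 ^ 3 + W.a₂ * x0 ^ 2 + W.a₄ * x0 + W.a₆ - (y0 ^ 2 + W.a₁ * x0 * y0 + W.a₃ * y0)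
  hsum : α + β = - W.a₁
  hprod : α * β = -(W.a₂ + 3 * x0)
  vx0 : A.valuation x0 ≤ 1
  vy0 : A.valuation y0 ≤ 1
  vα : A.valuation α ≤ 1
  vβ : A.valuation β ≤ 1
  vαβ : A.valuation (α - β) = 1
  vc : A.valuation c < 1
  c0 : c ≠ 0

end Fermat.Agent.HW
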